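/-
The properties of the switched curve used by the 2-adic argument.
-/
import Fermat.Prelude.Def_FLTPrelim_Modularity
import Mathlib.NumberTheory.Padics.PadicVal.Basic

set_option autoImplicit false

namespace Fermat.Agent.TwoAdic

/-- A semistable integral model of negative discriminant, with odd valuation at every odd bad
prime, at `2` either multiplicative with odd valuation or good ordinary with `Δ ≡ 5 (mod 8)`,
bad at some prime `≥ 5`, and without rational point of order `2`. -/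
structure IsTwoAdicSwitchModel (V : WeierstrassCurve ℤ) : Prop where
  Δ_neg : V.Δ < 0
  semistable : V.IsSemistableModel
  odd_valuation : ∀ q : ℕ, q.Prime → q ≠ 2 → (q : ℤ) ∣ V.Δ → Odd (padicValInt q V.Δ)
  atTwo : ((2 : ℤ) ∣ V.Δ ∧ Odd (padicValInt 2 V.Δ)) ∨ (Odd V.c₄ ∧ V.Δ % 8 = 5)
  exists_bad : ∃ q : ℕ, q.Prime ∧ 5 ≤ q ∧ (q : ℤ) ∣ V.Δ
  noTwoTorsion : ∀ x : ℚ,
    4 * x ^ 3 + (V.b₂ : ℚ) * x ^ 2 + 2 * (V.b₄ : ℚ) * x + (V.b₆ : ℚ) ≠ 0

theorem IsTwoAdicSwitchModel.Δ_ne_zero {V : WeierstrassCurve ℤ} (h : IsTwoAdicSwitchModel V) :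
    V.Δ ≠ 0 :=
  h.Δ_neg.ne

end Fermat.Agent.TwoAdic
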