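/-
An integral Weierstrass model with prescribed `c₄`, `c₆` when `c₄` is odd.
-/
import Mathlib.AlgebraicGeometry.EllipticCurve.Weierstrass
import Mathlib.Data.ZMod.Basic
import Mathlib.Tactic.LinearCombination
import Mathlib.Tactic.NormNum
import Mathlib.RingTheory.Int.Basic
import Mathlib.Tactic.IntervalCases

set_option autoImplicit false

namespace Fermat.Agent.TwoAdic

/-- Choice of `b₂ ∈ {1, 5, 9}`: it is `1` modulo `4` and adapted to `c₆` modulo `3`. -/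
theorem exists_b2 {C4 C6 D : ℤ} (hrel : C4 ^ 3 - C6 ^ 2 = 1728 * D) :
    ∃ e : ℤ, (3 ∣ C4 - (1 + 4 * e) ^ 2) ∧ (3 ∣ C4 → (1 + 4 * e) = 9) ∧
      (¬ 3 ∣ C4 → 3 ∣ C6 + (1 + 4 * e) ^ 3) := by
  have hcast := congrArg (fun z : ℤ => (z : ZMod 3)) hrel
  push_cast at hcast
  rw [show (1728 : ZMod 3) = 0 by decide, zero_mul] at hcast
  have key : ∀ n : ℤ, (3 : ℤ) ∣ n ↔ (n : ZMod 3) = 0 := fun n =>
    (ZMod.intCast_zmod_eq_zero_iff_dvd n 3).symm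
  simp only [key, Int.cast_sub, Int.cast_add, Int.cast_mul, Int.cast_pow, Int.cast_one,
    Int.cast_ofNat]
  have cases3 : ∀ u w : ZMod 3, u ^ 3 - w ^ 2 = 0 →
      (u = 0 ∧ u - (1 + 4 * 2) ^ 2 = 0) ∨
      (u ≠ 0 ∧ u - (1 + 4 * 0) ^ 2 = 0 ∧ w + (1 + 4 * 0) ^ 3 = 0) ∨
      (u ≠ 0 ∧ u - (1 + 4 * 1) ^ 2 = 0 ∧ w + (1 + 4 * 1) ^ 3 = 0) := by decide
  rcases cases3 _ _ hcast with ⟨h0, h⟩ | ⟨h0, h, h'⟩ | ⟨h0, h, h'⟩
  · exact ⟨2, by simpa using h, fun _ => by norm_num, fun hn => absurd h0 hn⟩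
  · exact ⟨0, by simpa using h, fun hz => absurd hz h0, fun _ => by simpa using h'⟩
  · exact ⟨1, by simpa using h, fun hz => absurd hz h0, fun _ => by simpa using h'⟩

/-- Kraus' conditions in the case of an odd `c₄`. -/
theorem exists_model (C4 C6 D : ℤ) (hrel : C4 ^ 3 - C6 ^ 2 = 1728 * D) (h4 : Odd C4)
    (h6 : C6 % 4 = 3) (h3 : ¬ 3 ∣ C4 ∨ 27 ∣ C6) :
    ∃ V : WeierstrassCurve ℤ, V.c₄ = C4 ∧ V.c₆ = C6 ∧ V.Δ = D := by
  obtain ⟨e, he4, he9, he6⟩ := exists_b2 hrel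
  set B : ℤ := 1 + 4 * e with hB
  have h8 : (8 : ℤ) ∣ C4 - B ^ 2 := by
    have hz := congrArg (fun z : ℤ => (z : ZMod 64)) hrel
    push_cast at hz
    rw [show (1728 : ZMod 64) = 0 by decide, zero_mul] at hz
    obtain ⟨k, rfl⟩ := h4
    rw [show ((8 : ℤ)) = ((8 : ℕ) : ℤ) by norm_num, ← ZMod.intCast_zmod_eq_zero_iff_dvd, hB]
    have hz8 := congrArg (ZMod.castHom (show 8 ∣ 64 by norm_num) (ZMod 8)) hz
    simp only [map_sub, map_pow, map_zero, map_intCast] at hz8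
    obtain ⟨m, rfl⟩ : ∃ m, C6 = 4 * m + 3 := ⟨C6 / 4, by omega⟩
    push_cast at hz8 ⊢
    generalize (k : ZMod 8) = x at hz8 ⊢
    generalize (m : ZMod 8) = y at hz8 ⊢
    generalize (e : ZMod 8) = z at hz8 ⊢
    revert x y z
    decide
  obtain ⟨b4, hb4⟩ : (24 : ℤ) ∣ B ^ 2 - C4 := by
    have : IsCoprime (8 : ℤ) 3 := ⟨-1, 3, by norm_num⟩
    simpa using (this.mul_dvd h8 he4).neg_right
  set P : ℤ := B ^ 3 - 36 * B * b4 with hP
  have hprod : (C6 + P) * (C6 - P) = 432 * B ^ 2 * b4 ^ 2 - 13824 * b4 ^ 3 - 1728 * D := by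
    have hC4 : C4 = B ^ 2 - 24 * b4 := by linear_combination -hb4
    rw [hC4] at hrel
    rw [hP]
    linear_combination -hrel
  have h27 : (27 : ℤ) ∣ C6 + P := by
    by_cases h3' : 3 ∣ C4
    · have hB9 := he9 h3'
      have hC6 : (27 : ℤ) ∣ C6 := h3.resolve_left (not_not.2 h3')
      rw [hP, hB9]
      exact hC6.add ⟨27 - 12 * b4, by ring⟩
    · have hsum := he6 h3'
      have hnd : ¬ (3 : ℤ) ∣ C6 - P := fun hd => by
        have h2 : (3 : ℤ) ∣ (C6 + B ^ 3) - (C6 - P) - 3 * (-12 * B * b4) :=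
          (hsum.sub hd).sub (dvd_mul_right _ _)
        rw [hP] at h2
        have h2' : (3 : ℤ) ∣ 2 * B ^ 3 := by
          ring_nf at h2 ⊢
          exact h2
        have hB3 : (3 : ℤ) ∣ B := (Int.prime_three.dvd_or_dvd h2').elim
          (fun h => absurd h (by norm_num)) Int.prime_three.dvd_of_dvd_pow
        exact h3' (by simpa using he4.add (dvd_pow hB3 two_ne_zero))
      refine ((Int.prime_three.coprime_iff_not_dvd.2 hnd).pow_left (m := 3)).dvd_of_dvd_mul_right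
        ⟨16 * B ^ 2 * b4 ^ 2 - 512 * b4 ^ 3 - 64 * D, ?_⟩
      rw [hprod]
      ring
  obtain ⟨m, hm⟩ : ∃ m, C6 = 4 * m + 3 := ⟨C6 / 4, by omega⟩
  obtain ⟨n, hn⟩ : ∃ n, C6 - P = 2 * (2 * n + 1) :=
    ⟨m - (16 * e ^ 3 + 12 * e ^ 2 + 3 * e - 9 * B * b4), by rw [hm, hP, hB]; ring⟩
  have h8P : (8 : ℤ) ∣ C6 + P := by
    have hd : (8 : ℤ) ∣ (C6 + P) * (2 * n + 1) :=
      ⟨27 * B ^ 2 * b4 ^ 2 - 864 * b4 ^ 3 - 108 * D, by
        apply mul_left_cancel₀ (two_ne_zero (α := ℤ))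
        rw [hn] at hprod
        linear_combination hprod⟩
    have hco : IsCoprime (2 : ℤ) (2 * n + 1) := ⟨-n, 1, by ring⟩
    exact (hco.pow_left (m := 3)).dvd_of_dvd_mul_right hd
  obtain ⟨b6, hb6⟩ : (216 : ℤ) ∣ -(C6 + P) := by
    have : IsCoprime (8 : ℤ) 27 := ⟨-10, 3, by norm_num⟩
    simpa using (this.mul_dvd h8P h27).neg_right
  have hkey : (4 : ℤ) ∣ b6 - b4 ^ 2 := by
    have heq : (C6 + P) * (C6 - P) = (-216 * b6) * (-2 * P - 216 * b6) := by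
      rw [show C6 + P = -(216 * b6) by linear_combination -hb6,
        show C6 - P = -216 * b6 - 2 * P by linear_combination -hb6]
      ring
    have h16 : 27 * P * b6 + 2916 * b6 ^ 2 = 27 * B ^ 2 * b4 ^ 2 - 864 * b4 ^ 3 - 108 * D := by
      apply mul_left_cancel₀ (show (16 : ℤ) ≠ 0 by norm_num)
      linear_combination hprod - heq
    rw [show (4 : ℤ) = ((4 : ℕ) : ℤ) by norm_num, ← ZMod.intCast_zmod_eq_zero_iff_dvd]
    have hz := congrArg (fun z : ℤ => (z : ZMod 4)) h16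
    rw [hP, hB] at hz
    push_cast at hz ⊢
    generalize (b6 : ZMod 4) = x at hz ⊢
    generalize (b4 : ZMod 4) = y at hz ⊢
    generalize (D : ZMod 4) = z at hz ⊢
    generalize (e : ZMod 4) = w at hz ⊢
    revert x y z w
    decide
  obtain ⟨a4, a3, ha, ha3⟩ : ∃ a4 a3 : ℤ, b4 = 2 * a4 + a3 ∧ a3 ^ 2 = a3 := by
    refine ⟨b4 / 2, b4 % 2, by omega, ?_⟩
    rcases Int.emod_two_eq_zero_or_one b4 with h | h <;> rw [h] <;> norm_num
  obtain ⟨a6, ha6⟩ : (4 : ℤ) ∣ b6 - a3 ^ 2 := by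
    obtain ⟨c, hc⟩ := hkey
    exact ⟨c + a4 ^ 2 + a4 * a3, by rw [ha] at hc; linear_combination hc⟩
  refine ⟨⟨1, e, a3, a4, a6⟩, ?_⟩
  have hb4' : (⟨1, e, a3, a4, a6⟩ : WeierstrassCurve ℤ).b₄ = b4 := by
    simp only [WeierstrassCurve.b₄]; linear_combination -ha
  have hb6' : (⟨1, e, a3, a4, a6⟩ : WeierstrassCurve ℤ).b₆ = b6 := by
    simp only [WeierstrassCurve.b₆]; linear_combination -ha6
  have hb2' : (⟨1, e, a3, a4, a6⟩ : WeierstrassCurve ℤ).b₂ = B := by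
    simp only [WeierstrassCurve.b₂, hB]; ring
  have hc4 : (⟨1, e, a3, a4, a6⟩ : WeierstrassCurve ℤ).c₄ = C4 := by
    rw [WeierstrassCurve.c₄, hb2', hb4']; linear_combination hb4
  have hc6 : (⟨1, e, a3, a4, a6⟩ : WeierstrassCurve ℤ).c₆ = C6 := by
    rw [WeierstrassCurve.c₆, hb2', hb4', hb6']
    linear_combination hb6 + hP
  refine ⟨hc4, hc6, ?_⟩
  have h := (⟨1, e, a3, a4, a6⟩ : WeierstrassCurve ℤ).c_relation
  rw [hc4, hc6, hrel] at h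
  exact mul_left_cancel₀ (by norm_num) h

end Fermat.Agent.TwoAdic
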