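/-
The Hesse family at odd primes: away from `6 Δ` a prime of the quartic form does not divide `c₄`,
and at a multiplicative prime the quartic form can take valuation one with `c₄` a unit.
-/
import Fermat.Agent.TwoAdic.HesseForms
import Mathlib.Data.ZMod.Basic
import Mathlib.Algebra.Field.ZMod
import Mathlib.Tactic.LinearCombination
import Mathlib.Tactic.NormNum.Prime
import Mathlib.RingTheory.Int.Basic
import Mathlib.RingTheory.Ideal.Quotient.Basic

set_option autoImplicit false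

namespace Fermat.Agent.TwoAdic

variable {R : Type*} [CommRing R]

/-- A quarter of the derivative of `hesseD` in `s`. -/
def hesseG (a b s t : R) : R :=
  s ^ 3 - 3 * a * s * t ^ 2 - 2 * b * t ^ 3

theorem hesseG_sq (a b s t : R) :
    hesseG a b s t ^ 2 = hesseD a b s t * (s ^ 2 - a * t ^ 2) + t ^ 2 * hesseC4 a b s t := by
  simp only [hesseG, hesseD, hesseC4]; ring

/-- The quartic and its derivative have no common nontrivial zero. -/
theorem false_of_hesseD_hesseG {F : Type*} [Field F] (h2 : (2 : F) ≠ 0) (h3 : (3 : F) ≠ 0)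
    {a b s t : F} (he : a ^ 3 - b ^ 2 ≠ 0) (hst : ¬ (s = 0 ∧ t = 0))
    (hD : hesseD a b s t = 0) (hG : hesseG a b s t = 0) : False := by
  simp only [hesseD] at hD
  simp only [hesseG] at hG
  by_cases ht : t = 0
  · subst ht
    exact hst ⟨pow_eq_zero_iff (n := 4) (by norm_num) |>.1 (by linear_combination hD), rfl⟩
  have hh : a * s ^ 2 + 2 * b * s * t + a ^ 2 * t ^ 2 = 0 := by
    apply mul_left_cancel₀ (mul_ne_zero h3 (pow_ne_zero 2 ht))
    linear_combination -hD + s * hG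
  have hk : b * s ^ 2 + 2 * a ^ 2 * s * t + a * b * t ^ 2 = 0 := by
    apply mul_left_cancel₀ (mul_ne_zero h2 ht)
    linear_combination -a * hG + s * hh
  have hs : s = 0 := by
    apply mul_left_cancel₀ (mul_ne_zero (mul_ne_zero h2 he) ht)
    linear_combination a * hk - b * hh
  subst hs
  have ha : a = 0 := by
    apply pow_eq_zero_iff two_ne_zero |>.1
    apply mul_left_cancel₀ (pow_ne_zero 2 ht)
    linear_combination hh
  subst ha
  have hb : b = 0 := by
    apply mul_left_cancel₀ (mul_ne_zero h2 (pow_ne_zero 3 ht))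
    linear_combination -hG
  exact he (by rw [hb]; ring)

/-- Away from `6 (a³ - b²)`, a prime dividing the quartic form does not divide `c₄`. -/
theorem not_dvd_hesseC4_of_dvd_hesseD {q : ℕ} (hq : q.Prime) (h2 : q ≠ 2) (h3 : q ≠ 3)
    {a b s t : ℤ} (he : ¬ (q : ℤ) ∣ a ^ 3 - b ^ 2) (hst : IsCoprime s t)
    (hD : (q : ℤ) ∣ hesseD a b s t) : ¬ (q : ℤ) ∣ hesseC4 a b s t := by
  have : Fact q.Prime := ⟨hq⟩
  intro hC
  have key : ∀ n : ℤ, (q : ℤ) ∣ n ↔ Int.castRingHom (ZMod q) n = 0 := fun n => by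
    rw [eq_intCast, ZMod.intCast_zmod_eq_zero_iff_dvd]
  rw [key, map_hesseD] at hD
  rw [key, map_hesseC4] at hC
  rw [key] at he
  have hne : ∀ p : ℕ, p.Prime → q ≠ p → ((p : ℕ) : ZMod q) ≠ 0 := fun p hp hqp h =>
    hqp ((Nat.prime_dvd_prime_iff_eq hq hp).1 ((ZMod.natCast_eq_zero_iff _ _).1 h))
  refine false_of_hesseD_hesseG (by simpa using hne 2 Nat.prime_two h2)
    (by simpa using hne 3 Nat.prime_three h3) (a := Int.castRingHom (ZMod q) a)
    (b := Int.castRingHom (ZMod q) b) (s := Int.castRingHom (ZMod q) s)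
    (t := Int.castRingHom (ZMod q) t) (by simpa using he) ?_ hD
    (pow_eq_zero_iff two_ne_zero |>.1 (by rw [hesseG_sq, hD, hC]; ring))
  rintro ⟨hs, ht⟩
  obtain ⟨x, y, hxy⟩ := hst
  have := congrArg (Int.castRingHom (ZMod q)) hxy
  simp [map_add, map_mul, hs, ht] at this

/-- Congruent arguments give congruent values of the three forms. -/
theorem dvd_hesse_sub {n a b s t s' t' : ℤ} (hs : n ∣ s - s') (ht : n ∣ t - t') :
    n ∣ hesseD a b s t - hesseD a b s' t' ∧ n ∣ hesseC4 a b s t - hesseC4 a b s' t' ∧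
      n ∣ hesseC6 a b s t - hesseC6 a b s' t' := by
  simp only [← Ideal.mem_span_singleton, ← Ideal.Quotient.eq] at hs ht ⊢
  refine ⟨?_, ?_, ?_⟩
  · rw [map_hesseD, map_hesseD, hs, ht]
  · rw [map_hesseC4, map_hesseC4, hs, ht]
  · rw [map_hesseC6, map_hesseC6, hs, ht]

/-- Near the simple root of the quartic at a multiplicative prime. -/
theorem hesse_multiplicative_class {q : ℕ} (hq : q.Prime) (h2 : q ≠ 2) {a b s t : ℤ}
    (ha : ¬ (q : ℤ) ∣ a) (he : (q : ℤ) ^ 2 ∣ a ^ 3 - b ^ 2)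
    (hs : (q : ℤ) ^ 2 ∣ s - (3 * b + q)) (ht : (q : ℤ) ^ 2 ∣ t - a) :
    (q : ℤ) ∣ hesseD a b s t ∧ ¬ (q : ℤ) ^ 2 ∣ hesseD a b s t ∧
      ¬ (q : ℤ) ∣ hesseC4 a b s t := by
  have hq' : Prime (q : ℤ) := Nat.prime_iff_prime_int.1 hq
  have h2' : ¬ (q : ℤ) ∣ 2 := fun h =>
    h2 ((Nat.prime_dvd_prime_iff_eq hq Nat.prime_two).1 (Int.natCast_dvd_natCast.1 h))
  obtain ⟨hD, hC, -⟩ := dvd_hesse_sub (a := a) (b := b) hs ht
  obtain ⟨w, hw⟩ := he
  have hqq : (q : ℤ) ∣ (q : ℤ) ^ 2 := dvd_pow_self _ two_ne_zero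
  have hb : ¬ (q : ℤ) ∣ b := fun hb => ha <| hq'.dvd_of_dvd_pow (n := 3) <| by
    rw [show a ^ 3 = (a ^ 3 - b ^ 2) + b ^ 2 by ring, hw]
    exact dvd_add (hqq.mul_right w) (dvd_pow hb two_ne_zero)
  set e := a ^ 3 - b ^ 2 with hedef
  have hD0 : hesseD a b (3 * b + q) a = -3 * e * (28 * b ^ 2 + e)
      + q * (4 * b * (16 * b ^ 2 - 11 * e))
      + q ^ 2 * (6 * (9 * b ^ 2 - a ^ 3) + 12 * b * q + q ^ 2) := by
    rw [hedef]; simp only [hesseD]; ring
  have hC0 : ∃ k, hesseC4 a b (3 * b + q) a = 256 * (a * b ^ 4) + q * k := by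
    have h1 : (q : ℤ) ∣ (3 * b + q : ℤ) - 3 * b := ⟨1, by ring⟩
    obtain ⟨-, ⟨k₁, hk₁⟩, -⟩ := dvd_hesse_sub (a := a) (b := b) h1 (dvd_zero _ |>.trans
      (dvd_of_eq (sub_self a).symm))
    refine ⟨k₁ + q * w * (a * (64 * b ^ 2 - 3 * e)), ?_⟩
    have h0 : hesseC4 a b (3 * b) a = 256 * (a * b ^ 4) + e * (a * (64 * b ^ 2 - 3 * e)) := by
      rw [hedef]; simp only [hesseC4]; ring
    rw [eq_add_of_sub_eq hk₁, h0, hw]
    ring
  have hdvd : (q : ℤ) ∣ hesseD a b s t := by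
    have h0 : (q : ℤ) ∣ hesseD a b (3 * b + q) a := by
      rw [hD0, hw]
      exact ((((hqq.mul_right w).mul_left _).mul_right _).add (dvd_mul_right _ _)).add
        (hqq.mul_right _)
    simpa using (hqq.trans hD).add h0
  refine ⟨hdvd, fun h => ?_, fun h => ?_⟩
  · have h0 : (q : ℤ) ^ 2 ∣ hesseD a b (3 * b + q) a := by simpa using h.sub hD
    rw [hD0, hw] at h0
    have h1 : (q : ℤ) ^ 2 ∣ q * (4 * b * (16 * b ^ 2 - 11 * e)) := by
      have h2 := (dvd_add_left (dvd_mul_right _ _)).1 h0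
      rw [← hw] at h2
      have h3 : (q : ℤ) ^ 2 ∣ -3 * e * (28 * b ^ 2 + e) := by
        rw [hw]; exact ((dvd_mul_right _ w).mul_left _).mul_right _
      exact (dvd_add_right h3).1 h2
    rw [sq, mul_dvd_mul_iff_left (by exact_mod_cast hq.ne_zero)] at h1
    rcases hq'.dvd_or_dvd h1 with h1 | h1
    · rcases hq'.dvd_or_dvd h1 with h1 | h1
      · exact h2' (hq'.dvd_of_dvd_pow (n := 2) (by simpa using h1))
      · exact hb h1
    · have h4 : (q : ℤ) ∣ 16 * b ^ 2 := by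
        have := h1.add (((hqq.mul_right w).trans (dvd_of_eq hw.symm)).mul_left 11)
        simpa using this
      rcases hq'.dvd_or_dvd h4 with h4 | h4
      · exact h2' (hq'.dvd_of_dvd_pow (n := 4) (by simpa using h4))
      · exact hb (hq'.dvd_of_dvd_pow h4)
  · obtain ⟨k, hk⟩ := hC0
    have h0 : (q : ℤ) ∣ 256 * (a * b ^ 4) + q * k := hk ▸ by simpa using h.sub (hqq.trans hC)
    rcases hq'.dvd_or_dvd ((dvd_add_left (dvd_mul_right _ _)).1 h0) with h1 | h1
    · exact h2' (hq'.dvd_of_dvd_pow (n := 8) (by simpa using h1))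
    · rcases hq'.dvd_or_dvd h1 with h1 | h1
      · exact ha h1
      · exact hb (hq'.dvd_of_dvd_pow h1)

end Fermat.Agent.TwoAdic
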