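/-
The Hesse family at `2`: in every semistable case some congruence class modulo `2 ^ 16` gives, after
scaling by `u ∈ {1, 2, 4}`, odd `c₄`, `c₆ ≡ 3 (mod 4)` and either multiplicative reduction with odd
valuation or good ordinary reduction with `Δ ≡ 5 (mod 8)`.
-/
import Fermat.Agent.TwoAdic.Switch.LocalOdd
import Mathlib.NumberTheory.Padics.PadicVal.Basic
import Mathlib.Tactic.IntervalCases
import Mathlib.Algebra.Ring.Parity

set_option autoImplicit false

namespace Fermat.Agent.TwoAdic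

theorem isCoprime_two_pow {o : ℤ} (ho : ¬ (2 : ℤ) ∣ o) (n : ℕ) : IsCoprime ((2 : ℤ) ^ n) o :=
  (Int.prime_two.coprime_iff_not_dvd.2 ho).pow_left

theorem padicValInt_two_mul (n : ℕ) {o : ℤ} (ho : ¬ (2 : ℤ) ∣ o) :
    padicValInt 2 (2 ^ n * o) = n := by
  have : Fact (Nat.Prime 2) := ⟨Nat.prime_two⟩
  have ho0 : o ≠ 0 := fun h => ho (h ▸ dvd_zero 2)
  rw [padicValInt.mul (pow_ne_zero _ two_ne_zero) ho0,
    show padicValInt 2 ((2 : ℤ) ^ n) = n by simp [padicValInt, Int.natAbs_pow],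
    padicValInt.eq_zero_of_not_dvd (p := 2) (by exact_mod_cast ho), add_zero]

theorem exists_two_pow_mul {D : ℤ} (hD : D ≠ 0) :
    ∃ o : ℤ, ¬ (2 : ℤ) ∣ o ∧ D = 2 ^ padicValInt 2 D * o := by
  obtain ⟨o, ho⟩ : ((2 : ℕ) : ℤ) ^ padicValInt 2 D ∣ D := padicValInt_dvd D
  refine ⟨o, fun h2 => ?_, by exact_mod_cast ho⟩
  obtain ⟨o', rfl⟩ := h2
  have h : ((2 : ℕ) : ℤ) ^ (padicValInt 2 D + 1) ∣ D := ⟨o', by
    conv_lhs => rw [ho]
    push_cast
    ring⟩
  have : Fact (Nat.Prime 2) := ⟨Nat.prime_two⟩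
  rcases (padicValInt_dvd_iff _ D).1 h with h | h
  · exact hD h
  · omega

/-- What the switch needs at `2` from a congruence class, with `u = 2 ^ i`. -/
def IsTwoClass (a b D : ℤ) (i : ℕ) (s₀ t₀ : ℤ) : Prop :=
  ∀ s t : ℤ, (2 : ℤ) ^ 16 ∣ s - s₀ → (2 : ℤ) ^ 16 ∣ t - t₀ →
    ∃ C4 C6 D' : ℤ, hesseC4 a b s t = (2 ^ i) ^ 4 * C4 ∧ hesseC6 a b s t = (2 ^ i) ^ 6 * C6 ∧
      D * hesseD a b s t ^ 3 = (2 ^ i) ^ 12 * D' ∧ Odd C4 ∧ C6 % 4 = 3 ∧
      ((2 ∣ D' ∧ Odd (padicValInt 2 D') ∧ padicValInt 2 D' ≤ padicValInt 2 D + 3) ∨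
        (D' % 8 = 5 ∧ ¬ (2 : ℤ) ∣ D))

/-- It is enough to look at the base point of the class. -/
theorem isTwoClass_of_point {a b D : ℤ} (hD : D ≠ 0) {i j k : ℕ} (hjk : 3 * j = 12 * i + k)
    (hi : i ≤ 2) (hj : j ≤ 9) (hk : k ≤ 3) {s₀ t₀ o c c' : ℤ}
    (hD0 : hesseD a b s₀ t₀ = 2 ^ j * o) (ho : ¬ (2 : ℤ) ∣ o)
    (hc : hesseC4 a b s₀ t₀ = (2 ^ i) ^ 4 * c) (hco : Odd c)
    (hc' : hesseC6 a b s₀ t₀ = (2 ^ i) ^ 6 * c') (hc4 : c' % 4 = 3)
    (hend : (Odd (padicValInt 2 D + k)) ∨ (k = 0 ∧ (D * o) % 8 = 5)) :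
    IsTwoClass a b D i s₀ t₀ := by
  intro s t hs ht
  obtain ⟨⟨x, hx⟩, ⟨y, hy⟩, ⟨z, hz⟩⟩ := dvd_hesse_sub (a := a) (b := b) hs ht
  have e4 : ((2 : ℤ) ^ i) ^ 4 * 2 ^ (16 - 4 * i) = 2 ^ 16 := by
    rw [← pow_mul, ← pow_add]; congr 1; omega
  have e6 : ((2 : ℤ) ^ i) ^ 6 * 2 ^ (16 - 6 * i) = 2 ^ 16 := by
    rw [← pow_mul, ← pow_add]; congr 1; omega
  have ej : (2 : ℤ) ^ j * 2 ^ (16 - j) = 2 ^ 16 := by rw [← pow_add]; congr 1; omega
  set o' := o + 2 ^ (16 - j) * x with ho'def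
  have hD1 : hesseD a b s t = 2 ^ j * o' := by
    rw [ho'def]; linear_combination hx + hD0 - x * ej
  have ho' : ¬ (2 : ℤ) ∣ o' := fun h => ho <| by
    have : (2 : ℤ) ∣ 2 ^ (16 - j) * x := (dvd_pow_self 2 (by omega)).mul_right x
    simpa [ho'def] using h.sub this
  refine ⟨c + 2 ^ (16 - 4 * i) * y, c' + 2 ^ (16 - 6 * i) * z, 2 ^ k * (D * o' ^ 3), ?_, ?_, ?_,
    ?_, ?_, ?_⟩
  · linear_combination hy + hc - y * e4
  · linear_combination hz + hc' - z * e6
  · rw [hD1, ← mul_assoc ((2 ^ i : ℤ) ^ 12), ← pow_mul, ← pow_add, show i * 12 + k = j * 3 by omega,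
      pow_mul]
    ring
  · exact hco.add_even ((Int.even_pow.2 ⟨even_two, by omega⟩).mul_right y)
  · have : (4 : ℤ) ∣ 2 ^ (16 - 6 * i) * z :=
      (dvd_trans (by norm_num) (pow_dvd_pow (2 : ℤ) (show 2 ≤ 16 - 6 * i by omega))).mul_right z
    omega
  · obtain ⟨d, hd, hD'⟩ := exists_two_pow_mul hD
    have ho3 : ¬ (2 : ℤ) ∣ d * o' ^ 3 := fun h => (Int.prime_two.dvd_or_dvd h).elim hd
      fun h => ho' (Int.prime_two.dvd_of_dvd_pow h)
    rcases hend with hodd | ⟨rfl, h5⟩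
    · left
      have hval : padicValInt 2 (2 ^ k * (D * o' ^ 3)) = padicValInt 2 D + k := by
        conv_lhs => rw [hD', ← mul_assoc, ← mul_assoc, ← pow_add, mul_assoc,
          padicValInt_two_mul _ ho3]
        omega
      refine ⟨?_, by rwa [hval], by omega⟩
      rw [hD', ← mul_assoc, ← mul_assoc, ← pow_add, mul_assoc]
      exact (dvd_pow_self 2 (fun h0 => by
        obtain ⟨n, hn⟩ := hodd
        omega)).mul_right _
    · right
      refine ⟨?_, fun h => by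
        have := h.mul_right o
        omega⟩
      have h8 : (8 : ℤ) ∣ 2 ^ (16 - j) * x :=
        (dvd_trans (by norm_num) (pow_dvd_pow (2 : ℤ) (show 3 ≤ 16 - j by omega))).mul_right x
      obtain ⟨u, hu⟩ : Odd o' := Int.not_even_iff_odd.1 fun h => ho' (even_iff_two_dvd.1 h)
      have h1 : (8 : ℤ) ∣ D * o' ^ 3 - D * o' :=
        ⟨D * o' * (u * (u + 1) / 2), by
          have : (2 : ℤ) ∣ u * (u + 1) := (Int.even_mul_succ_self u).two_dvd
          obtain ⟨m, hm⟩ := this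
          rw [hm, Int.mul_ediv_cancel_left _ two_ne_zero, hu]
          linear_combination (4 * D * (2 * u + 1)) * hm⟩
      have h2 : (8 : ℤ) ∣ D * o' - D * o := by
        rw [← mul_sub, ho'def, add_sub_cancel_left]
        exact h8.mul_left D
      rw [pow_zero, one_mul]
      omega

theorem intCast_eq_iff_emod (n : ℤ) (m r : ℕ) (hr : r < m) :
    ((n : ZMod m) = (r : ZMod m)) ↔ n % (m : ℤ) = r := by
  rw [← Int.cast_natCast (R := ZMod m) r, ZMod.intCast_eq_intCast_iff', Int.emod_eq_of_lt (a := (r : ℤ))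
    (by omega) (by omega)]

theorem odd_mul_emod_eight {a : ℤ} (ha : Odd a) : (a * a) % 8 = 1 := by
  obtain ⟨k, rfl⟩ := ha
  obtain ⟨m, hm⟩ : (2 : ℤ) ∣ k * (k + 1) := (Int.even_mul_succ_self k).two_dvd
  rw [show (2 * k + 1) * (2 * k + 1) = 1 + 8 * m by linear_combination 4 * hm]
  omega

/-- The congruence classes at `2`. -/
theorem exists_twoClass {a b D : ℤ} (hrel : a ^ 3 - b ^ 2 = 1728 * D) (hD : D ≠ 0)
    (hW : (Odd a ∧ b % 4 = 3) ∨ (¬ (2 : ℤ) ∣ D ∧ 16 ∣ a ∧ b % 32 = 8)) :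
    ∃ (i : ℕ) (s₀ t₀ : ℤ), i ≤ 2 ∧ ¬ (2 ∣ s₀ ∧ 2 ∣ t₀) ∧ IsTwoClass a b D i s₀ t₀ := by
  rcases hW with ⟨ha, hb⟩ | ⟨h2D, ⟨α, rfl⟩, hb⟩
  · have hbodd : Odd b := Int.odd_iff.2 (by omega)
    have ha2 : ¬ (2 : ℤ) ∣ a := fun h => (Int.not_even_iff_odd.2 ha) (even_iff_two_dvd.2 h)
    have hbd : ¬ (2 : ℤ) ∣ b := fun h => (Int.not_even_iff_odd.2 hbodd) (even_iff_two_dvd.2 h)
    have hb4 : (b : ZMod 4) = 3 := (intCast_eq_iff_emod b 4 3 (by norm_num)).2 hb
    by_cases h2 : (2 : ℤ) ∣ D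
    · by_cases hv : Odd (padicValInt 2 D)
      · refine ⟨0, 1, 0, by norm_num, fun h => by norm_num at h, ?_⟩
        exact isTwoClass_of_point hD (i := 0) (j := 0) (k := 0) (o := 1) (c := a) (c' := b)
          (by norm_num) (by norm_num) (by norm_num) (by norm_num) (by simp) (by norm_num)
          (by simp) ha (by simp) hb (Or.inl (by simpa using hv))
      · obtain ⟨w, hw⟩ : ∃ w, a ^ 3 = b ^ 2 + 256 * w := by
          obtain ⟨d, hd⟩ : (4 : ℤ) ∣ D := by
            obtain ⟨o, ho, hD'⟩ := exists_two_pow_mul hD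
            have h1 : 2 ≤ padicValInt 2 D := by
              by_contra h
              interval_cases hp : padicValInt 2 D
              · rw [pow_zero, one_mul] at hD'
                exact ho (hD' ▸ h2)
              · exact hv (by norm_num)
            rw [hD']
            exact (dvd_trans (by norm_num) (pow_dvd_pow (2 : ℤ) h1)).mul_right o
          exact ⟨27 * d, by linear_combination hrel + 1728 * hd⟩
        refine ⟨2, 3 * b + 8, a, by norm_num, fun h => ha2 h.2, ?_⟩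
        refine isTwoClass_of_point hD (i := 2) (j := 9) (k := 3)
          (o := 8 - 192 * w - 384 * w ^ 2 + 12 * b - 176 * b * w + 6 * b ^ 2 - 42 * b ^ 2 * w
            + b ^ 3)
          (c := a * (16 + 384 * w - 768 * w ^ 2 + 32 * b + 320 * b * w + 24 * b ^ 2
            + 64 * b ^ 2 * w + 8 * b ^ 3 + b ^ 4))
          (c' := 12288 * w + 589824 * w ^ 3 + 64 * b + 26880 * b * w + 15360 * b * w ^ 2
            + 258048 * b * w ^ 3 + 192 * b ^ 2 + 23680 * b ^ 2 * w + 16896 * b ^ 2 * w ^ 2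
            + 240 * b ^ 3 + 10560 * b ^ 3 * w + 4480 * b ^ 3 * w ^ 2 + 160 * b ^ 4
            + 2400 * b ^ 4 * w + 60 * b ^ 5 + 224 * b ^ 5 * w + 12 * b ^ 6 + b ^ 7)
          (by norm_num) (by norm_num) (by norm_num) (by norm_num) ?_ ?_ ?_ ?_ ?_ ?_ (Or.inl ?_)
        · rw [show hesseD a b (3 * b + 8) a = (3 * b + 8) ^ 4 - 6 * a ^ 3 * (3 * b + 8) ^ 2
            - 8 * (b * a ^ 3) * (3 * b + 8) - 3 * (a ^ 3) ^ 2 by simp only [hesseD]; ring, hw]
          ring
        · intro h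
          obtain ⟨k, hk⟩ := h
          have : (2 : ℤ) ∣ b ^ 3 :=
            ⟨k - (4 - 96 * w - 192 * w ^ 2 + 6 * b - 88 * b * w + 3 * b ^ 2 - 21 * b ^ 2 * w),
              by linear_combination hk⟩
          exact hbd (Int.prime_two.dvd_of_dvd_pow this)
        · rw [show hesseC4 a b (3 * b + 8) a = a * ((3 * b + 8) ^ 4 + 4 * b * (3 * b + 8) ^ 3
            + 6 * a ^ 3 * (3 * b + 8) ^ 2 + 4 * b * a ^ 3 * (3 * b + 8)
            + (-3 * a ^ 3 + 4 * b ^ 2) * a ^ 3) by simp only [hesseC4]; ring, hw]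
          ring
        · exact ha.mul (Even.add_odd ⟨8 + 192 * w - 384 * w ^ 2 + 16 * b + 160 * b * w
            + 12 * b ^ 2 + 32 * b ^ 2 * w + 4 * b ^ 3, by ring⟩ (hbodd.pow (n := 4)))
        · rw [show hesseC6 a b (3 * b + 8) a = b * (3 * b + 8) ^ 6
            + 6 * a ^ 3 * (3 * b + 8) ^ 5 + 15 * a ^ 3 * b * (3 * b + 8) ^ 4
            + 20 * b ^ 2 * a ^ 3 * (3 * b + 8) ^ 3 + 15 * (a ^ 3) ^ 2 * b * (3 * b + 8) ^ 2
            + (18 * (a ^ 3) ^ 3 - 12 * (a ^ 3) ^ 2 * b ^ 2) * (3 * b + 8)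
            + (9 * (a ^ 3) ^ 3 * b - 8 * b ^ 3 * (a ^ 3) ^ 2) by simp only [hesseC6]; ring, hw]
          ring
        · refine (intCast_eq_iff_emod _ 4 3 (by norm_num)).1 ?_
          push_cast
          rw [hb4]
          generalize (w : ZMod 4) = x
          revert x
          decide
        · exact (Nat.not_odd_iff_even.1 hv).add_odd (by decide)
    · have hv : padicValInt 2 D = 0 :=
        padicValInt.eq_zero_of_not_dvd (p := 2) (by exact_mod_cast h2)
      have hDodd : D % 8 = 1 ∨ D % 8 = 3 ∨ D % 8 = 5 ∨ D % 8 = 7 := by omega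
      have hw : a ^ 3 = b ^ 2 + 64 * (27 * D) := by linear_combination hrel
      have ha8 : a % 8 = 1 := by
        have h2' := odd_mul_emod_eight hbodd
        have h3 := odd_mul_emod_eight ha
        have h4 : (a * a * a) % 8 = 1 := by
          rw [show a * a * a = a ^ 3 by ring, hw, sq]
          omega
        rw [Int.mul_emod, h3, one_mul, Int.emod_emod] at h4
        exact h4
      rcases hDodd with h | h | h | h
      · refine ⟨0, 0, 1, by norm_num, fun h => by norm_num at h, ?_⟩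
        refine isTwoClass_of_point hD (i := 0) (j := 0) (k := 0) (o := -3 * a ^ 2)
          (c := -3 * a ^ 3 + 4 * b ^ 2) (c' := 9 * a ^ 3 * b - 8 * b ^ 3)
          (by norm_num) (by norm_num) (by norm_num) (by norm_num)
          (by simp [hesseD]) ?_ (by simp [hesseC4]) ?_ (by simp [hesseC6]) ?_ (Or.inr ⟨rfl, ?_⟩)
        · intro h'
          rcases Int.prime_two.dvd_or_dvd h' with h' | h'
          · norm_num at h'
          · exact ha2 (Int.prime_two.dvd_of_dvd_pow h')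
        · exact ((by decide : Odd (-3 : ℤ)).mul ha.pow).add_even ⟨2 * b ^ 2, by ring⟩
        · refine (intCast_eq_iff_emod _ 4 3 (by norm_num)).1 ?_
          have : (a : ZMod 4) = 1 := (intCast_eq_iff_emod a 4 1 (by norm_num)).2 (by omega)
          push_cast
          rw [hb4, this]
          decide
        · refine (intCast_eq_iff_emod _ 8 5 (by norm_num)).1 ?_
          push_cast
          rw [(intCast_eq_iff_emod D 8 1 (by norm_num)).2 h,
            (intCast_eq_iff_emod a 8 1 (by norm_num)).2 ha8]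
          decide
      · refine ⟨1, -7 * b, a, by norm_num, fun h => ha2 h.2, ?_⟩
        refine isTwoClass_of_point hD (i := 1) (j := 4) (k := 0)
          (o := -768 * (27 * D) ^ 2 - 976 * b ^ 2 * (27 * D) + 135 * b ^ 4)
          (c := a * (-768 * (27 * D) ^ 2 + 1056 * b ^ 2 * (27 * D) + 81 * b ^ 4))
          (c' := -479232 * b * (27 * D) ^ 3 + 29440 * b ^ 3 * (27 * D) ^ 2
            - 70416 * b ^ 5 * (27 * D) + 729 * b ^ 7)
          (by norm_num) (by norm_num) (by norm_num) (by norm_num) ?_ ?_ ?_ ?_ ?_ ?_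
          (Or.inr ⟨rfl, ?_⟩)
        · rw [show hesseD a b (-7 * b) a = (-7 * b) ^ 4 - 6 * a ^ 3 * (-7 * b) ^ 2
            - 8 * (b * a ^ 3) * (-7 * b) - 3 * (a ^ 3) ^ 2 by simp only [hesseD]; ring, hw]
          ring
        · intro ⟨k, hk⟩
          have : (2 : ℤ) ∣ b ^ 4 :=
            ⟨k - (-384 * (27 * D) ^ 2 - 488 * b ^ 2 * (27 * D) + 67 * b ^ 4),
              by linear_combination hk⟩
          exact hbd (Int.prime_two.dvd_of_dvd_pow this)
        · rw [show hesseC4 a b (-7 * b) a = a * ((-7 * b) ^ 4 + 4 * b * (-7 * b) ^ 3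
            + 6 * a ^ 3 * (-7 * b) ^ 2 + 4 * b * a ^ 3 * (-7 * b)
            + (-3 * a ^ 3 + 4 * b ^ 2) * a ^ 3) by simp only [hesseC4]; ring, hw]
          ring
        · refine ha.mul ((show Even (-768 * (27 * D) ^ 2 + 1056 * b ^ 2 * (27 * D)) from
            ⟨-384 * (27 * D) ^ 2 + 528 * b ^ 2 * (27 * D), by ring⟩).add_odd
              ((by decide : Odd (81 : ℤ)).mul hbodd.pow))
        · rw [show hesseC6 a b (-7 * b) a = b * (-7 * b) ^ 6 + 6 * a ^ 3 * (-7 * b) ^ 5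
            + 15 * a ^ 3 * b * (-7 * b) ^ 4 + 20 * b ^ 2 * a ^ 3 * (-7 * b) ^ 3
            + 15 * (a ^ 3) ^ 2 * b * (-7 * b) ^ 2
            + (18 * (a ^ 3) ^ 3 - 12 * (a ^ 3) ^ 2 * b ^ 2) * (-7 * b)
            + (9 * (a ^ 3) ^ 3 * b - 8 * b ^ 3 * (a ^ 3) ^ 2) by simp only [hesseC6]; ring, hw]
          ring
        · refine (intCast_eq_iff_emod _ 4 3 (by norm_num)).1 ?_
          push_cast
          rw [hb4]
          generalize (D : ZMod 4) = x
          revert x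
          decide
        · refine (intCast_eq_iff_emod _ 8 5 (by norm_num)).1 ?_
          push_cast
          rw [(intCast_eq_iff_emod D 8 3 (by norm_num)).2 h]
          have hb8 : (b : ZMod 8) ^ 2 = 1 := by
            have := (intCast_eq_iff_emod (b * b) 8 1 (by norm_num)).2 (odd_mul_emod_eight hbodd)
            push_cast at this
            rw [sq]; exact this
          rw [show (b : ZMod 8) ^ 4 = ((b : ZMod 8) ^ 2) ^ 2 by ring, hb8]
          decide
      · refine ⟨0, 1, 0, by norm_num, fun h => by norm_num at h, ?_⟩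
        exact isTwoClass_of_point hD (i := 0) (j := 0) (k := 0) (o := 1) (c := a) (c' := b)
          (by norm_num) (by norm_num) (by norm_num) (by norm_num) (by simp) (by norm_num)
          (by simp) ha (by simp) hb (Or.inr ⟨rfl, by simpa using h⟩)
      · refine ⟨1, -3 * b, a, by norm_num, fun h => ha2 h.2, ?_⟩
        refine isTwoClass_of_point hD (i := 1) (j := 4) (k := 0)
          (o := -768 * (27 * D) ^ 2 - 144 * b ^ 2 * (27 * D) + 3 * b ^ 4)
          (c := a * (-768 * (27 * D) ^ 2 + 160 * b ^ 2 * (27 * D) + b ^ 4))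
          (c' := -184320 * b * (27 * D) ^ 3 + 1792 * b ^ 3 * (27 * D) ^ 2
            - 592 * b ^ 5 * (27 * D) + b ^ 7)
          (by norm_num) (by norm_num) (by norm_num) (by norm_num) ?_ ?_ ?_ ?_ ?_ ?_
          (Or.inr ⟨rfl, ?_⟩)
        · rw [show hesseD a b (-3 * b) a = (-3 * b) ^ 4 - 6 * a ^ 3 * (-3 * b) ^ 2
            - 8 * (b * a ^ 3) * (-3 * b) - 3 * (a ^ 3) ^ 2 by simp only [hesseD]; ring, hw]
          ring
        · intro ⟨k, hk⟩
          have : (2 : ℤ) ∣ b ^ 4 :=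
            ⟨k - (-384 * (27 * D) ^ 2 - 72 * b ^ 2 * (27 * D) + b ^ 4),
              by linear_combination hk⟩
          exact hbd (Int.prime_two.dvd_of_dvd_pow this)
        · rw [show hesseC4 a b (-3 * b) a = a * ((-3 * b) ^ 4 + 4 * b * (-3 * b) ^ 3
            + 6 * a ^ 3 * (-3 * b) ^ 2 + 4 * b * a ^ 3 * (-3 * b)
            + (-3 * a ^ 3 + 4 * b ^ 2) * a ^ 3) by simp only [hesseC4]; ring, hw]
          ring
        · exact ha.mul ((show Even (-768 * (27 * D) ^ 2 + 160 * b ^ 2 * (27 * D)) from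
            ⟨-384 * (27 * D) ^ 2 + 80 * b ^ 2 * (27 * D), by ring⟩).add_odd hbodd.pow)
        · rw [show hesseC6 a b (-3 * b) a = b * (-3 * b) ^ 6 + 6 * a ^ 3 * (-3 * b) ^ 5
            + 15 * a ^ 3 * b * (-3 * b) ^ 4 + 20 * b ^ 2 * a ^ 3 * (-3 * b) ^ 3
            + 15 * (a ^ 3) ^ 2 * b * (-3 * b) ^ 2
            + (18 * (a ^ 3) ^ 3 - 12 * (a ^ 3) ^ 2 * b ^ 2) * (-3 * b)
            + (9 * (a ^ 3) ^ 3 * b - 8 * b ^ 3 * (a ^ 3) ^ 2) by simp only [hesseC6]; ring, hw]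
          ring
        · refine (intCast_eq_iff_emod _ 4 3 (by norm_num)).1 ?_
          push_cast
          rw [hb4]
          generalize (D : ZMod 4) = x
          revert x
          decide
        · refine (intCast_eq_iff_emod _ 8 5 (by norm_num)).1 ?_
          push_cast
          rw [(intCast_eq_iff_emod D 8 7 (by norm_num)).2 h]
          have hb8 : (b : ZMod 8) ^ 2 = 1 := by
            have := (intCast_eq_iff_emod (b * b) 8 1 (by norm_num)).2 (odd_mul_emod_eight hbodd)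
            push_cast at this
            rw [sq]; exact this
          rw [show (b : ZMod 8) ^ 4 = ((b : ZMod 8) ^ 2) ^ 2 by ring, hb8]
          decide
  · obtain ⟨β, rfl⟩ : (8 : ℤ) ∣ b := by omega
    have hβ : β % 4 = 1 := by omega
    have hv : padicValInt 2 D = 0 :=
      padicValInt.eq_zero_of_not_dvd (p := 2) (by exact_mod_cast h2D)
    have hC6 : ∀ l : ℤ, ∃ c', hesseC6 (16 * α) (8 * β) (4 * l) 1 = (2 ^ 2) ^ 6 * c' ∧
        c' % 4 = 3 := fun l => by
      refine ⟨8 * β * l ^ 6 + 384 * α ^ 2 * l ^ 5 + 120 * α * β * l ^ 4 + 20 * β ^ 2 * l ^ 3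
        + 120 * α ^ 2 * β * l ^ 2 + (1152 * α ^ 4 - 12 * α * β ^ 2) * l
        + (72 * α ^ 3 * β - β ^ 3), by simp only [hesseC6]; ring, ?_⟩
      refine (intCast_eq_iff_emod _ 4 3 (by norm_num)).1 ?_
      push_cast
      rw [(intCast_eq_iff_emod β 4 1 (by norm_num)).2 hβ]
      generalize (α : ZMod 4) = x
      generalize (l : ZMod 4) = y
      revert x y
      decide
    have hC4 : ∀ l : ℤ, ∃ c, hesseC4 (16 * α) (8 * β) (4 * l) 1 = (2 ^ 2) ^ 4 * c ∧ Odd c :=
      fun l => ⟨16 * α * l ^ 4 + 8 * β * l ^ 3 + 96 * α ^ 2 * l ^ 2 + 8 * α * β * l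
        + (-48 * α ^ 3 + β ^ 2), by simp only [hesseC4]; ring,
        Even.add_odd ⟨8 * α * l ^ 4 + 4 * β * l ^ 3 + 48 * α ^ 2 * l ^ 2 + 4 * α * β * l, by ring⟩
          (Even.add_odd ⟨-24 * α ^ 3, by ring⟩ ((Int.odd_iff.2 (by omega : β % 2 = 1)).pow))⟩
    have hD0 : ∀ l : ℤ, hesseD (16 * α) (8 * β) (4 * l) 1
        = 2 ^ 8 * (l ^ 4 - 6 * α * l ^ 2 - β * l - 3 * α ^ 2) := fun l => by
      simp only [hesseD]; ring
    rcases Int.even_or_odd α with ⟨α', hα⟩ | hα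
    · obtain ⟨c, hc, hco⟩ := hC4 2
      obtain ⟨c', hc', hc4⟩ := hC6 2
      refine ⟨2, 4 * 2, 1, le_rfl, fun h => by norm_num at h, ?_⟩
      refine isTwoClass_of_point hD (i := 2) (j := 9) (k := 3)
        (o := 8 - 24 * α' - β - 6 * α' ^ 2) (c := c) (c' := c')
        (by norm_num) (by norm_num) (by norm_num) (by norm_num) ?_ ?_ hc hco hc' hc4
        (Or.inl (by rw [hv]; decide))
      · rw [hD0, hα]; ring
      · intro h; omega
    · have hα2 : (α : ZMod 8) ^ 2 = 1 := by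
        have := (intCast_eq_iff_emod (α * α) 8 1 (by norm_num)).2 (odd_mul_emod_eight hα)
        push_cast at this
        rw [sq]; exact this
      obtain ⟨m, hm⟩ : ∃ m : ℕ, (D : ZMod 8) * (5 - 2 * (β : ZMod 8) * m) = 5 := by
        have hd : ∀ d e : ZMod 8, (d = 1 ∨ d = 3 ∨ d = 5 ∨ d = 7) →
            (e = 1 ∨ e = 5) → ∃ m ∈ Finset.range 4, d * (5 - 2 * e * (m : ZMod 8)) = 5 := by
          decide
        have hd' : D % 8 = 1 ∨ D % 8 = 3 ∨ D % 8 = 5 ∨ D % 8 = 7 := by omega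
        have he' : β % 8 = 1 ∨ β % 8 = 5 := by omega
        obtain ⟨m, -, hm⟩ := hd (D : ZMod 8) (β : ZMod 8)
          (by rcases hd' with h | h | h | h <;>
            simp [(intCast_eq_iff_emod D 8 _ (by norm_num)).2 h])
          (by rcases he' with h | h <;>
            simp [(intCast_eq_iff_emod β 8 _ (by norm_num)).2 h])
        exact ⟨m, hm⟩
      obtain ⟨c, hc, hco⟩ := hC4 (2 * m)
      obtain ⟨c', hc', hc4⟩ := hC6 (2 * m)
      refine ⟨2, 4 * (2 * m), 1, le_rfl, fun h => by norm_num at h, ?_⟩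
      refine isTwoClass_of_point hD (i := 2) (j := 8) (k := 0)
        (o := (2 * m : ℤ) ^ 4 - 6 * α * (2 * m) ^ 2 - β * (2 * m) - 3 * α ^ 2) (c := c) (c' := c')
        (by norm_num) (by norm_num) (by norm_num) (by norm_num) (hD0 _) ?_ hc hco hc' hc4
        (Or.inr ⟨rfl, ?_⟩)
      · intro ⟨k, hk⟩
        have : (2 : ℤ) ∣ α ^ 2 :=
          ⟨-k + 8 * m ^ 4 - 12 * α * m ^ 2 - β * m - α ^ 2, by linear_combination -hk⟩
        exact Int.not_even_iff_odd.2 hα
          (even_iff_two_dvd.2 (Int.prime_two.dvd_of_dvd_pow this))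
      · refine (intCast_eq_iff_emod _ 8 5 (by norm_num)).1 ?_
        have hα' : ∀ (x y : ZMod 8) (n : ZMod 8), (x = 1 ∨ x = 3 ∨ x = 5 ∨ x = 7) →
            (2 * n) ^ 4 - 6 * x * (2 * n) ^ 2 - y * (2 * n) - 3 * x ^ 2 = 5 - 2 * y * n := by
          decide
        push_cast
        rw [hα' (α : ZMod 8) (β : ZMod 8) (m : ZMod 8) (by
          have : α % 8 = 1 ∨ α % 8 = 3 ∨ α % 8 = 5 ∨ α % 8 = 7 := by
            rcases hα with ⟨k, hk⟩; omega
          rcases this with h | h | h | h <;>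
            simp [(intCast_eq_iff_emod α 8 _ (by norm_num)).2 h])]
        exact hm

end Fermat.Agent.TwoAdic
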