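/-
The congruence class of parameters combining the local choices at all bad primes.
-/
import Fermat.Agent.TwoAdic.Switch.LocalTwo
import Fermat.Prelude.Def_FLTPrelim_Modularity
import Mathlib.RingTheory.Coprime.Lemmas
import Mathlib.Data.Nat.PrimeFin

set_option autoImplicit false

namespace Fermat.Agent.TwoAdic

/-- Chinese remainders for integers. -/
theorem exists_forall_dvd_sub_of_coprime (S : Finset ℕ) (m r : ℕ → ℤ)
    (hm : ∀ p ∈ S, ∀ q ∈ S, p ≠ q → IsCoprime (m p) (m q)) :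
    ∃ x : ℤ, ∀ q ∈ S, m q ∣ x - r q := by
  classical
  induction S using Finset.induction with
  | empty => exact ⟨0, by simp⟩
  | insert a T ha ih =>
    obtain ⟨x, hx⟩ := ih fun p hp q hq =>
      hm p (Finset.mem_insert_of_mem hp) q (Finset.mem_insert_of_mem hq)
    obtain ⟨u, v, huv⟩ : IsCoprime (∏ q ∈ T, m q) (m a) := IsCoprime.prod_left fun q hq =>
      hm q (Finset.mem_insert_of_mem hq) a (Finset.mem_insert_self a T)
        (fun h => ha (h ▸ hq))
    refine ⟨x + (r a - x) * u * ∏ q ∈ T, m q, fun q hq => ?_⟩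
    rcases Finset.mem_insert.1 hq with rfl | hq
    · exact ⟨-(r q - x) * v, by linear_combination (r q - x) * huv⟩
    · rw [show x + (r a - x) * u * ∏ q ∈ T, m q - r q = (x - r q) + (r a - x) * u * ∏ q ∈ T, m q by
        ring]
      exact (hx q hq).add ((Finset.dvd_prod_of_mem m hq).mul_left _)

/-- The invariants of a semistable model at `2`. -/
theorem twoTrichotomy (W : WeierstrassCurve ℤ) (hW : W.IsSemistableModel) :
    (Odd W.c₄ ∧ W.c₆ % 4 = 3) ∨ (¬ (2 : ℤ) ∣ W.Δ ∧ 16 ∣ W.c₄ ∧ W.c₆ % 32 = 8) := by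
  by_cases h4 : Odd W.c₄
  · left
    refine ⟨h4, ?_⟩
    have h2 : Odd W.b₂ := by
      rw [WeierstrassCurve.c₄] at h4
      have he : Even (24 * W.b₄) := ⟨12 * W.b₄, by ring⟩
      rcases Int.even_or_odd W.b₂ with hb | hb
      · exact absurd h4 (Int.not_odd_iff_even.2 ((hb.pow_of_ne_zero two_ne_zero).sub he))
      · exact hb
    obtain ⟨k, hk⟩ : ∃ k, W.a₁ = 2 * k + 1 := by
      rcases Int.even_or_odd W.a₁ with ha | ha
      · obtain ⟨k, hk⟩ := ha
        exact absurd h2 (Int.not_odd_iff_even.2 ⟨2 * k ^ 2 + 2 * W.a₂, by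
          rw [WeierstrassCurve.b₂, hk]; ring⟩)
      · exact ha
    refine (intCast_eq_iff_emod _ 4 3 (by norm_num)).1 ?_
    rw [WeierstrassCurve.c₆, WeierstrassCurve.b₂, hk]
    push_cast
    generalize (k : ZMod 4) = x
    generalize (W.a₂ : ZMod 4) = y
    generalize (W.b₄ : ZMod 4) = z
    generalize (W.b₆ : ZMod 4) = w
    revert x y z w
    decide
  · right
    have hΔ : ¬ (2 : ℤ) ∣ W.Δ := fun h => by
      have := hW 2 Nat.prime_two (by exact_mod_cast h)
      exact h4 (Int.not_even_iff_odd.1 fun he => this (by exact_mod_cast even_iff_two_dvd.1 he))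
    obtain ⟨k, hk⟩ : Even W.a₁ := by
      rcases Int.even_or_odd W.a₁ with ha | ha
      · exact ha
      · obtain ⟨k, hk⟩ := ha
        exact absurd (⟨8 * (k ^ 2 + k + W.a₂) ^ 2 + 4 * (k ^ 2 + k + W.a₂) - 12 * W.b₄, by
          rw [WeierstrassCurve.c₄, WeierstrassCurve.b₂, hk]; ring⟩ : Odd W.c₄) h4
    obtain ⟨l, hl⟩ : Odd W.a₃ := by
      rcases Int.even_or_odd W.a₃ with ⟨l, hl⟩ | ha
      · refine absurd ?_ hΔ
        exact ⟨-(2 * (2 * (k ^ 2 + W.a₂)) ^ 2 * W.b₈) - 32 * (W.a₄ + 2 * k * l) ^ 3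
          - 54 * (2 * (l ^ 2 + W.a₆)) ^ 2
          + 36 * (2 * (k ^ 2 + W.a₂)) * (W.a₄ + 2 * k * l) * (2 * (l ^ 2 + W.a₆)), by
            rw [WeierstrassCurve.Δ, WeierstrassCurve.b₂, WeierstrassCurve.b₄, WeierstrassCurve.b₆,
              hk, hl]
            ring⟩
      · exact ha
    refine ⟨hΔ, ⟨(k ^ 2 + W.a₂) ^ 2 - 3 * (W.a₄ + k * W.a₃), by
      rw [WeierstrassCurve.c₄, WeierstrassCurve.b₂, WeierstrassCurve.b₄, hk]; ring⟩, ?_⟩
    have h : W.c₆ = 32 * (-2 * (k ^ 2 + W.a₂) ^ 3 + 9 * (k ^ 2 + W.a₂) * (W.a₄ + k * W.a₃)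
        - 27 * (l ^ 2 + l + W.a₆) - 7) + 8 := by
      rw [WeierstrassCurve.c₆, WeierstrassCurve.b₂, WeierstrassCurve.b₄, WeierstrassCurve.b₆, hk,
        hl]
      ring
    omega

/-- The class at an odd prime: near the simple root of the quartic when the prime is bad with even
valuation, near `(1 : 0)` otherwise. -/
def oddClass (a b D : ℤ) (q : ℕ) : ℤ × ℤ :=
  if (q : ℤ) ∣ D ∧ Even (padicValInt q D) then (3 * b + q, a) else (1, 0)

end Fermat.Agent.TwoAdic
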