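/-
A semistable curve with odd valuations of the discriminant and a discriminant much larger than `c₄`
has no rational point of order two.
-/
import Fermat.Agent.TwoAdic.Switch.LocalTwo
import Fermat.Prelude.Def_FLTPrelim_Modularity
import Mathlib.RingTheory.IntegralClosure.IntegrallyClosed
import Mathlib.RingTheory.Polynomial.RationalRoot
import Mathlib.Tactic.Linarith

set_option autoImplicit false

open Polynomial

namespace Fermat.Agent.TwoAdic

/-- A rational root of the two-division cubic is a quarter of an integer root of the monic cubic. -/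
theorem exists_int_root {b2 b4 b6 : ℤ} {x : ℚ}
    (hx : 4 * x ^ 3 + (b2 : ℚ) * x ^ 2 + 2 * (b4 : ℚ) * x + (b6 : ℚ) = 0) :
    ∃ r : ℤ, r ^ 3 + b2 * r ^ 2 + 8 * b4 * r + 16 * b6 = 0 := by
  have hr : (4 * x) ^ 3 + (b2 : ℚ) * (4 * x) ^ 2 + 8 * (b4 : ℚ) * (4 * x) + 16 * (b6 : ℚ) = 0 := by
    linear_combination 16 * hx
  have hint : IsIntegral ℤ (4 * x) := by
    refine ⟨X ^ 3 + C b2 * X ^ 2 + C (8 * b4) * X + C (16 * b6), ?_, ?_⟩
    · monicity!
    · rw [eval₂_add, eval₂_add, eval₂_add, eval₂_mul, eval₂_mul, eval₂_pow, eval₂_pow, eval₂_X,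
        eval₂_C, eval₂_C, eval₂_C]
      simp only [eq_intCast]
      push_cast
      exact hr
  obtain ⟨r, hr'⟩ := IsIntegrallyClosed.isIntegral_iff.1 hint
  rw [← hr', eq_intCast] at hr
  exact ⟨r, by exact_mod_cast hr⟩

/-- No rational point of order two. -/
theorem no_rational_two_torsion (V : WeierstrassCurve ℤ) (hss : V.IsSemistableModel)
    (hodd : ∀ q : ℕ, q.Prime → q ≠ 2 → (q : ℤ) ∣ V.Δ → Odd (padicValInt q V.Δ)) {K : ℕ}
    (hK : padicValInt 2 V.Δ ≤ K)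
    (hbig : ((2 : ℤ) ^ (4 + K)) ^ 2 * (|V.c₄| + 7 * 2 ^ (4 + K)) < 256 * |V.Δ|) (x : ℚ) :
    4 * x ^ 3 + (V.b₂ : ℚ) * x ^ 2 + 2 * (V.b₄ : ℚ) * x + (V.b₆ : ℚ) ≠ 0 := by
  intro hx
  obtain ⟨r, hr⟩ := exists_int_root hx
  set A := V.b₂ + 3 * r with hA
  set B := 3 * r ^ 2 + 2 * V.b₂ * r + 8 * V.b₄ with hB
  have hc4 : A ^ 2 - 3 * B = V.c₄ := by rw [hA, hB, WeierstrassCurve.c₄]; ring
  have hdisc : B ^ 2 * (A ^ 2 - 4 * B) = 256 * V.Δ := by
    have hrel : (4 : ℚ) * (V.b₈ : ℚ) = (V.b₂ : ℚ) * V.b₆ - (V.b₄ : ℚ) ^ 2 := by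
      exact_mod_cast V.b_relation
    have h6 : (V.b₆ : ℚ) = -((r : ℚ) ^ 3 + V.b₂ * r ^ 2 + 8 * V.b₄ * r) / 16 := by
      have h : ((r : ℚ) ^ 3 + V.b₂ * r ^ 2 + 8 * V.b₄ * r + 16 * V.b₆) = 0 := by exact_mod_cast hr
      linear_combination h / 16
    have h8 : (V.b₈ : ℚ) = ((V.b₂ : ℚ) * V.b₆ - (V.b₄ : ℚ) ^ 2) / 4 := by
      linear_combination hrel / 4
    have : ((B ^ 2 * (A ^ 2 - 4 * B) : ℤ) : ℚ) = ((256 * V.Δ : ℤ) : ℚ) := by
      rw [hA, hB, WeierstrassCurve.Δ]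
      push_cast
      rw [h8, h6]
      ring
    exact_mod_cast this
  have hΔ : V.Δ ≠ 0 := fun h => by
    rw [h, abs_zero, mul_zero] at hbig
    exact absurd hbig (not_lt.2 (by positivity))
  have hB0 : B ≠ 0 := fun h => hΔ (by
    have h0 : (256 : ℤ) * V.Δ = 0 := by rw [← hdisc, h]; ring
    exact (mul_eq_zero.1 h0).resolve_left (by norm_num))
  have hd0 : A ^ 2 - 4 * B ≠ 0 := fun h => hΔ (by
    have h0 : (256 : ℤ) * V.Δ = 0 := by rw [← hdisc, h]; ring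
    exact (mul_eq_zero.1 h0).resolve_left (by norm_num))
  have honly2 : ∀ q : ℕ, q.Prime → (q : ℤ) ∣ B → q = 2 := by
    intro q hq hqB
    by_contra h2
    have : Fact q.Prime := ⟨hq⟩
    have hq' : Prime (q : ℤ) := Nat.prime_iff_prime_int.1 hq
    have hq2 : ¬ (q : ℤ) ∣ 2 := fun h =>
      h2 ((Nat.prime_dvd_prime_iff_eq hq Nat.prime_two).1 (Int.natCast_dvd_natCast.1 h))
    have hq256 : ¬ (q : ℤ) ∣ 256 := fun h => hq2 (hq'.dvd_of_dvd_pow (n := 8) (by simpa using h))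
    have hqΔ : (q : ℤ) ∣ V.Δ := (hq'.dvd_or_dvd
      (hdisc ▸ (dvd_pow hqB two_ne_zero).mul_right _)).resolve_left hq256
    have hqd : ¬ (q : ℤ) ∣ A ^ 2 - 4 * B := fun h => by
      refine hss q hq hqΔ ?_
      have hA2 : (q : ℤ) ∣ A ^ 2 := by simpa using h.add (hqB.mul_left 4)
      rw [← hc4]
      exact hA2.sub (hqB.mul_left 3)
    have hval := congrArg (padicValInt q) hdisc
    rw [padicValInt.mul (pow_ne_zero _ hB0) hd0, padicValInt.mul (by norm_num) hΔ,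
      padicValInt.eq_zero_of_not_dvd hqd, padicValInt.eq_zero_of_not_dvd hq256,
      sq, padicValInt.mul hB0 hB0] at hval
    obtain ⟨k, hk⟩ := hodd q hq h2 hqΔ
    omega
  obtain ⟨o, ho, hBo⟩ := exists_two_pow_mul hB0
  have ho1 : |o| = 1 := by
    rw [← Int.natCast_natAbs]
    by_contra h
    obtain ⟨q, hq, hqo⟩ := Nat.exists_prime_and_dvd (n := o.natAbs) (by exact_mod_cast h)
    have hqo' : (q : ℤ) ∣ o := Int.natCast_dvd.2 hqo
    obtain rfl := honly2 q hq (hBo ▸ hqo'.mul_left _)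
    exact ho (by exact_mod_cast hqo')
  have hkK : 2 * padicValInt 2 B ≤ 8 + K := by
    have : Fact (Nat.Prime 2) := ⟨Nat.prime_two⟩
    have h8 : padicValInt 2 256 = 8 := by
      rw [show (256 : ℤ) = 2 ^ 8 * 1 by norm_num, padicValInt_two_mul 8 (by norm_num)]
    have hval := congrArg (padicValInt 2) hdisc
    rw [padicValInt.mul (pow_ne_zero _ hB0) hd0, padicValInt.mul (by norm_num) hΔ, h8,
      sq, padicValInt.mul hB0 hB0] at hval
    omega
  have hBle : |B| ≤ 2 ^ (4 + K) := by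
    rw [hBo, abs_mul, abs_pow, ho1, mul_one, show |(2 : ℤ)| = 2 by norm_num]
    exact pow_le_pow_right₀ (by norm_num) (by omega)
  have hd : |A ^ 2 - 4 * B| ≤ |V.c₄| + 7 * |B| := by
    rw [show A ^ 2 - 4 * B = V.c₄ + -B by rw [← hc4]; ring]
    refine (abs_add_le _ _).trans ?_
    rw [abs_neg]
    linarith [abs_nonneg B]
  have hlast : 256 * |V.Δ| ≤ ((2 : ℤ) ^ (4 + K)) ^ 2 * (|V.c₄| + 7 * 2 ^ (4 + K)) := by
    rw [show (256 : ℤ) * |V.Δ| = |256 * V.Δ| by rw [abs_mul]; norm_num, ← hdisc, abs_mul, abs_pow]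
    refine mul_le_mul (pow_le_pow_left₀ (abs_nonneg B) hBle 2) ?_ (abs_nonneg _) (by positivity)
    linarith
  exact absurd hbig (not_lt.2 hlast)

end Fermat.Agent.TwoAdic
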