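/-
The switched model: a member of the Hesse family of `W` with the properties needed at `2`.
-/
import Fermat.Agent.TwoAdic.Switch.Defs
import Fermat.Agent.TwoAdic.Switch.KrausModel
import Fermat.Agent.TwoAdic.Switch.LocalClass
import Fermat.Agent.TwoAdic.Switch.NoTwoTorsion
import Fermat.Agent.TwoAdic.HesseFamily
import Fermat.Agent.TwoAdic.Sieve.Main
import Mathlib.Tactic.Linarith
import Mathlib.Tactic.Positivity

set_option autoImplicit false

namespace Fermat.Agent.TwoAdic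

theorem prime_int_not_dvd {q p : ℕ} (hq : q.Prime) (hp : p.Prime) (h : q ≠ p) :
    ¬ (q : ℤ) ∣ (p : ℤ) := fun hd =>
  h ((Nat.prime_dvd_prime_iff_eq hq hp).1 (Int.natCast_dvd_natCast.1 hd))

theorem c4_ne_zero_of_semistable (W : WeierstrassCurve ℤ)
    (hW : W.IsSemistableModel) : W.c₄ ≠ 0 := by
  intro h
  have hunit : W.Δ.natAbs = 1 := by
    by_contra hne
    obtain ⟨q, hq, hd⟩ := Nat.exists_prime_and_dvd hne
    exact hW q hq (Int.natCast_dvd.2 hd) (h ▸ dvd_zero _)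
  have hrel := W.c_relation
  rw [h] at hrel
  have h6 : W.c₆ ^ 2 = 1728 := by
    rcases Int.natAbs_eq W.Δ with e | e <;> rw [hunit] at e <;> rw [e] at hrel <;>
      push_cast at hrel
    · exfalso; nlinarith [sq_nonneg W.c₆]
    · linarith
  have hb : W.c₆.natAbs * W.c₆.natAbs = 1728 := by
    have := congrArg Int.natAbs h6
    rwa [sq, Int.natAbs_mul] at this
  have h1 : W.c₆.natAbs < 42 := by nlinarith
  have h2 : 41 < W.c₆.natAbs := by
    by_contra h2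
    have := Nat.mul_le_mul (not_lt.1 h2) (not_lt.1 h2)
    omega
  omega

/-- A crude bound on `c₄` of the family. -/
theorem abs_hesseC4_le {a b s t R : ℤ} (ht : 0 ≤ t) (hs : |s| ≤ R * t) :
    |hesseC4 a b s t| ≤
      (|a| * R ^ 4 + 4 * |b| * R ^ 3 + 6 * a ^ 2 * R ^ 2 + 4 * |a * b| * R
        + |-3 * a ^ 3 + 4 * b ^ 2|) * t ^ 4 := by
  have h2 : |s| ^ 2 ≤ R ^ 2 * t ^ 2 := by
    rw [← mul_pow]; exact pow_le_pow_left₀ (abs_nonneg _) hs 2
  have h3 : |s| ^ 3 ≤ R ^ 3 * t ^ 3 := by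
    rw [← mul_pow]; exact pow_le_pow_left₀ (abs_nonneg _) hs 3
  have h4 : |s| ^ 4 ≤ R ^ 4 * t ^ 4 := by
    rw [← mul_pow]; exact pow_le_pow_left₀ (abs_nonneg _) hs 4
  have e4 : |a * s ^ 4| ≤ |a| * R ^ 4 * t ^ 4 := by
    rw [abs_mul, abs_pow, mul_assoc]; exact mul_le_mul_of_nonneg_left h4 (abs_nonneg _)
  have e3 : |4 * b * s ^ 3 * t| ≤ 4 * |b| * R ^ 3 * t ^ 4 := by
    rw [abs_mul, abs_mul, abs_mul, abs_pow, abs_of_nonneg ht, show |(4 : ℤ)| = 4 by norm_num]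
    calc 4 * |b| * |s| ^ 3 * t ≤ 4 * |b| * (R ^ 3 * t ^ 3) * t := by gcongr
      _ = _ := by ring
  have e2 : |6 * a ^ 2 * s ^ 2 * t ^ 2| ≤ 6 * a ^ 2 * R ^ 2 * t ^ 4 := by
    rw [abs_mul, abs_mul, abs_mul, abs_pow s, abs_of_nonneg (sq_nonneg a),
      abs_of_nonneg (sq_nonneg t), show |(6 : ℤ)| = 6 by norm_num]
    calc 6 * a ^ 2 * |s| ^ 2 * t ^ 2 ≤ 6 * a ^ 2 * (R ^ 2 * t ^ 2) * t ^ 2 := by gcongr
      _ = _ := by ring
  have e1 : |4 * a * b * s * t ^ 3| ≤ 4 * |a * b| * R * t ^ 4 := by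
    rw [show 4 * a * b * s * t ^ 3 = 4 * (a * b) * s * t ^ 3 by ring, abs_mul, abs_mul, abs_mul,
      abs_of_nonneg (pow_nonneg ht 3), show |(4 : ℤ)| = 4 by norm_num]
    calc 4 * |a * b| * |s| * t ^ 3 ≤ 4 * |a * b| * (R * t) * t ^ 3 := by gcongr
      _ = _ := by ring
  have e0 : |(-3 * a ^ 3 + 4 * b ^ 2) * t ^ 4| ≤ |-3 * a ^ 3 + 4 * b ^ 2| * t ^ 4 := by
    rw [abs_mul, abs_of_nonneg (pow_nonneg ht 4)]
  rw [hesseC4]
  refine (abs_add_le _ _).trans ?_
  refine (add_le_add ((abs_add_le _ _).trans (add_le_add ((abs_add_le _ _).trans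
    (add_le_add ((abs_add_le _ _).trans (add_le_add e4 e3)) e2)) e1)) e0).trans (le_of_eq ?_)
  ring

/-- The cone in which the quartic form has the sign opposite to the discriminant. -/
theorem exists_cone {a b D : ℤ} (hrel : a ^ 3 - b ^ 2 = 1728 * D) (hD : D ≠ 0) (ha : a ≠ 0) :
    ∃ α β : ℝ, α < β ∧ ∃ R : ℤ, 1 ≤ R ∧ ∀ s t : ℤ, 0 < t → α * t < s → (s : ℝ) < β * t →
      0 < s ∧ |s| ≤ R * t ∧ D * hesseD a b s t < 0 ∧ t ^ 4 ≤ |hesseD a b s t| := by
  rcases lt_or_gt_of_ne hD with hneg | hpos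
  · set K : ℤ := 2 + 6 * |a| + 8 * |b| + 3 * a ^ 2 with hK
    have hK1 : 1 ≤ K := by rw [hK]; nlinarith [abs_nonneg a, abs_nonneg b, sq_nonneg a]
    refine ⟨(K : ℝ), (K : ℝ) + 1, by linarith, K + 1, by omega, fun s t ht hs hs' => ?_⟩
    have h1 : K * t < s := by exact_mod_cast hs
    have h2 : s < (K + 1) * t := by exact_mod_cast hs'
    have hs0 : 0 < s := lt_of_le_of_lt (by positivity) h1
    have hts : t ≤ s := by nlinarith
    have hmain : t * s ^ 3 ≤ hesseD a b s t := by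
      have ha' : -|a| ≤ -a := neg_le_neg (le_abs_self a)
      have hb' : -|b| ≤ -b := neg_le_neg (le_abs_self b)
      have e1 : -6 * |a| * (s ^ 3 * t) ≤ -6 * a * s ^ 2 * t ^ 2 := by
        have : s ^ 2 * t ^ 2 ≤ s ^ 3 * t := by
          calc s ^ 2 * t ^ 2 = s ^ 2 * t * t := by ring
            _ ≤ s ^ 2 * t * s := by gcongr
            _ = _ := by ring
        nlinarith [abs_nonneg a, le_abs_self a, mul_nonneg (sq_nonneg s) (sq_nonneg t)]
      have e2 : -8 * |b| * (s ^ 3 * t) ≤ -8 * b * s * t ^ 3 := by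
        have : s * t ^ 3 ≤ s ^ 3 * t := by
          calc s * t ^ 3 = s * t * (t * t) := by ring
            _ ≤ s * t * (s * s) := by gcongr
            _ = _ := by ring
        nlinarith [abs_nonneg b, le_abs_self b, mul_pos hs0 (pow_pos ht 3)]
      have e3 : -3 * a ^ 2 * (s ^ 3 * t) ≤ -3 * a ^ 2 * t ^ 4 := by
        have : t ^ 4 ≤ s ^ 3 * t := by
          calc t ^ 4 = t ^ 3 * t := by ring
            _ ≤ s ^ 3 * t := by gcongr
        nlinarith [sq_nonneg a]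
      have e4 : (K * t) * s ^ 3 ≤ s ^ 4 := by
        calc (K * t) * s ^ 3 ≤ s * s ^ 3 := by gcongr
          _ = _ := by ring
      have hpos3 : 0 < s ^ 3 * t := by positivity
      rw [hesseD]
      rw [hK] at e4
      nlinarith
    have hDpos : 0 < hesseD a b s t := lt_of_lt_of_le (by positivity) hmain
    refine ⟨hs0, by rw [abs_of_pos hs0]; exact h2.le, mul_neg_of_neg_of_pos hneg hDpos, ?_⟩
    rw [abs_of_pos hDpos]
    refine le_trans ?_ hmain
    calc t ^ 4 = t * t ^ 3 := by ring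
      _ ≤ t * s ^ 3 := by gcongr
  · have ha0 : 0 < a := by
      by_contra h
      nlinarith [sq_nonneg b, mul_nonneg (mul_self_nonneg a) (show 0 ≤ -a by omega)]
    set δ : ℝ := 1 / (2 * (1 + 8 * |(b : ℝ)|)) with hδ
    have hδ0 : 0 < δ := by rw [hδ]; positivity
    have hδ1 : δ ≤ 1 := by
      rw [hδ, div_le_one (by positivity)]; linarith [abs_nonneg (b : ℝ)]
    refine ⟨0, δ, hδ0, 1, le_rfl, fun s t ht hs hs' => ?_⟩
    have hs0 : 0 < s := by
      have : (0 : ℝ) < s := by simpa using hs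
      exact_mod_cast this
    have hst : s ≤ t := by
      have h : (s : ℝ) < t := hs'.trans_le (mul_le_of_le_one_left (by exact_mod_cast ht.le) hδ1)
      exact_mod_cast h.le
    have hb2 : 2 * (1 + 8 * |b|) * s ≤ t := by
      have h : (s : ℝ) * (2 * (1 + 8 * |(b : ℝ)|)) < t := by
        rw [hδ, div_mul_eq_mul_div, one_mul, lt_div_iff₀ (by positivity)] at hs'
        exact hs'
      have h' : s * (2 * (1 + 8 * |b|)) < t := by exact_mod_cast h
      linarith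
    have e1 : s ^ 4 ≤ t ^ 3 * s := by
      calc s ^ 4 = s ^ 3 * s := by ring
        _ ≤ t ^ 3 * s := by gcongr
    have e2 : 2 * (1 + 8 * |b|) * s * t ^ 3 ≤ t * t ^ 3 := by gcongr
    have e3 : -8 * b * (s * t ^ 3) ≤ 8 * |b| * (s * t ^ 3) := by
      nlinarith [neg_le_abs b, mul_pos hs0 (pow_pos ht 3)]
    have hD' : hesseD a b s t ≤ -t ^ 4 := by
      rw [hesseD]
      have h4 : 0 ≤ 6 * a * s ^ 2 * t ^ 2 := by positivity
      have h5 : 3 * t ^ 4 ≤ 3 * a ^ 2 * t ^ 4 := by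
        have : 1 ≤ a ^ 2 := one_le_pow₀ (by omega)
        nlinarith [pow_pos ht 4]
      nlinarith
    have hneg' : hesseD a b s t < 0 := lt_of_le_of_lt hD' (by simp [pow_pos ht 4])
    exact ⟨hs0, by rw [abs_of_pos hs0, one_mul]; exact hst, mul_neg_of_pos_of_neg hpos hneg',
      by rw [abs_of_neg hneg']; linarith⟩

/-- The member of a class at an odd prime dividing its discriminant. -/
theorem switch_odd_prime {W : WeierstrassCurve ℤ} (hΔ : W.Δ ≠ 0) (hW : W.IsSemistableModel)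
    {q : ℕ} (hq : q.Prime) (h2 : q ≠ 2) {s t u C4 D' : ℤ} (hst : IsCoprime s t)
    (hu2 : ∀ p : ℕ, p.Prime → p ≠ 2 → ¬ (p : ℤ) ∣ u)
    (h4 : hesseC4 W.c₄ W.c₆ s t = u ^ 4 * C4)
    (hΔ' : W.Δ * hesseD W.c₄ W.c₆ s t ^ 3 = u ^ 12 * D')
    (hD0 : hesseD W.c₄ W.c₆ s t ≠ 0) (hD'0 : D' ≠ 0) (hu0 : u ≠ 0)
    (hcls : (q = 3 ∨ (q : ℤ) ∣ W.Δ) → (q : ℤ) ^ 3 ∣ s - (oddClass W.c₄ W.c₆ W.Δ q).1 ∧
      (q : ℤ) ^ 3 ∣ t - (oddClass W.c₄ W.c₆ W.Δ q).2)
    (hsq : ¬ (q = 3 ∨ (q : ℤ) ∣ W.Δ) → ¬ (q : ℤ) ^ 2 ∣ hesseD W.c₄ W.c₆ s t)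
    (hdiv : (q : ℤ) ∣ W.Δ ∨ (q : ℤ) ∣ hesseD W.c₄ W.c₆ s t) :
    ¬ (q : ℤ) ∣ C4 ∧ Odd (padicValInt q D') ∧ padicValInt q D' ≤ padicValInt q W.Δ + 3 := by
  have hrel : W.c₄ ^ 3 - W.c₆ ^ 2 = 1728 * W.Δ := W.c_relation.symm
  set a := W.c₄ with hadef
  set b := W.c₆ with hbdef
  set D := W.Δ with hDdef
  have : Fact q.Prime := ⟨hq⟩
  have hq' := Nat.prime_iff_prime_int.1 hq
  have hqu : ¬ (q : ℤ) ∣ u := hu2 q hq h2
  have hC : ∀ {n : ℤ}, (q : ℤ) ∣ n - u ^ 4 * C4 → ¬ (q : ℤ) ∣ n → ¬ (q : ℤ) ∣ C4 :=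
    fun h hn hc => hn (by
      have h' := h.add (hc.mul_left (u ^ 4))
      rwa [sub_add_cancel] at h')
  have hval : padicValInt q D' = padicValInt q D + 3 * padicValInt q (hesseD a b s t) := by
    have h := congrArg (padicValInt q) hΔ'
    rw [padicValInt.mul hΔ (pow_ne_zero 3 hD0), padicValInt.mul (pow_ne_zero 12 hu0) hD'0,
      padicValInt.eq_zero_of_not_dvd (fun hd => hqu (hq'.dvd_of_dvd_pow hd)), zero_add,
      show hesseD a b s t ^ 3 = hesseD a b s t * hesseD a b s t * hesseD a b s t by ring,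
      padicValInt.mul (mul_ne_zero hD0 hD0) hD0, padicValInt.mul hD0 hD0] at h
    omega
  have hone : ∀ {n : ℤ}, n ≠ 0 → (q : ℤ) ∣ n → ¬ (q : ℤ) ^ 2 ∣ n → padicValInt q n = 1 := by
    intro n hn h1 h2
    have ha := (padicValInt_dvd_iff (p := q) 1 n).1 (by simpa using h1)
    have hb : ¬ 2 ≤ padicValInt q n := fun hle => h2 ((padicValInt_dvd_iff 2 n).2 (Or.inr hle))
    rcases ha with ha | ha
    · exact absurd ha hn
    · omega
  by_cases hqS : q = 3 ∨ (q : ℤ) ∣ D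
  · obtain ⟨hs', ht'⟩ := hcls hqS
    unfold oddClass at hs' ht'
    split_ifs at hs' ht' with hev
    · obtain ⟨hqD, hev⟩ := hev
      have he2 : (q : ℤ) ^ 2 ∣ a ^ 3 - b ^ 2 := by
        rw [hrel]
        refine ((padicValInt_dvd_iff 2 D).2 (Or.inr ?_)).mul_left _
        obtain ⟨k, hk⟩ := hev
        have h1 : 1 ≤ padicValInt q D :=
          ((padicValInt_dvd_iff 1 D).1 (by simpa using hqD)).resolve_left hΔ
        omega
      obtain ⟨hd1, hd2, hd3⟩ := hesse_multiplicative_class hq h2 (hW q hq hqD) he2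
        ((pow_dvd_pow _ (by norm_num)).trans hs') ((pow_dvd_pow _ (by norm_num)).trans ht')
      refine ⟨hC (n := hesseC4 a b s t) (by rw [h4, sub_self]; exact dvd_zero _) hd3, ?_, ?_⟩
      · rw [hval, hone hD0 hd1 hd2, mul_one]
        exact hev.add_odd (by decide)
      · rw [hval, hone hD0 hd1 hd2]
    · obtain ⟨hd1, hd2, -⟩ := dvd_hesse_sub (a := a) (b := b)
        ((dvd_pow_self (q : ℤ) (by norm_num)).trans hs')
        ((dvd_pow_self (q : ℤ) (by norm_num)).trans ht')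
      rw [hesseD_zero, one_pow] at hd1
      rw [hesseC4_zero, one_pow, mul_one] at hd2
      have hDunit : ¬ (q : ℤ) ∣ hesseD a b s t := fun h =>
        hq'.not_dvd_one ((dvd_sub_right h).1 hd1)
      have hqD : (q : ℤ) ∣ D := hdiv.resolve_right hDunit
      refine ⟨hC (n := a) (by rw [← h4, ← neg_sub]; exact hd2.neg_right) (hW q hq hqD), ?_, ?_⟩
      · rw [hval, padicValInt.eq_zero_of_not_dvd hDunit, mul_zero, add_zero]
        exact Nat.not_even_iff_odd.1 fun h => hev ⟨hqD, h⟩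
      · rw [hval, padicValInt.eq_zero_of_not_dvd hDunit]
        omega
  · have hqD : ¬ (q : ℤ) ∣ D := fun h => hqS (Or.inr h)
    have h3 : q ≠ 3 := fun h => hqS (Or.inl h)
    have hqh := hdiv.resolve_left hqD
    have he : ¬ (q : ℤ) ∣ a ^ 3 - b ^ 2 := by
      rw [hrel]
      intro h
      rcases hq'.dvd_or_dvd h with h | h
      · rw [show (1728 : ℤ) = 2 ^ 6 * 3 ^ 3 by norm_num] at h
        rcases hq'.dvd_or_dvd h with h | h
        · exact prime_int_not_dvd hq Nat.prime_two h2 (hq'.dvd_of_dvd_pow h)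
        · exact prime_int_not_dvd hq Nat.prime_three h3 (hq'.dvd_of_dvd_pow h)
      · exact hqD h
    refine ⟨hC (n := hesseC4 a b s t) (by rw [h4, sub_self]; exact dvd_zero _)
      (not_dvd_hesseC4_of_dvd_hesseD hq h2 h3 he hst hqh), ?_, ?_⟩
    · rw [hval, padicValInt.eq_zero_of_not_dvd hqD, hone hD0 hqh (hsq hqS)]
      decide
    · rw [hval, hone hD0 hqh (hsq hqS)]

/-- The member of a class at `3` when `W` is good there. -/
theorem switch_three {W : WeierstrassCurve ℤ} (h3D : ¬ (3 : ℤ) ∣ W.Δ) {s t u C4 C6 D' : ℤ}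
    (hu3 : IsCoprime (3 : ℤ) u) (h4 : hesseC4 W.c₄ W.c₆ s t = u ^ 4 * C4)
    (h6 : hesseC6 W.c₄ W.c₆ s t = u ^ 6 * C6)
    (hΔ' : W.Δ * hesseD W.c₄ W.c₆ s t ^ 3 = u ^ 12 * D')
    (hs' : (27 : ℤ) ∣ s - 1) (ht' : (27 : ℤ) ∣ t - 0) :
    ¬ (3 : ℤ) ∣ D' ∧ (¬ (3 : ℤ) ∣ C4 ∨ 27 ∣ C6) := by
  set a := W.c₄ with hadef
  set b := W.c₆ with hbdef
  set D := W.Δ with hDdef
  obtain ⟨hd1, hd2, hd3⟩ := dvd_hesse_sub (a := a) (b := b) hs' ht'
  rw [hesseD_zero, one_pow] at hd1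
  rw [hesseC4_zero, one_pow, mul_one] at hd2
  rw [hesseC6_zero, one_pow, mul_one] at hd3
  have h27 : (3 : ℤ) ∣ 27 := by norm_num
  refine ⟨fun h => ?_, ?_⟩
  · have hx : (3 : ℤ) ∣ D * hesseD a b s t ^ 3 := hΔ' ▸ h.mul_left _
    rcases Int.prime_three.dvd_or_dvd hx with hx | hx
    · exact h3D hx
    · have := (dvd_sub_right (Int.prime_three.dvd_of_dvd_pow hx)).1 (h27.trans hd1)
      norm_num at this
  · by_cases h3a : (3 : ℤ) ∣ a
    · right
      have hb27 : (27 : ℤ) ∣ b := by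
        have hb2 : (3 : ℤ) ∣ W.b₂ := Int.prime_three.dvd_of_dvd_pow (n := 2) (by
          have h := h3a.add ((dvd_mul_right (3 : ℤ) (8 * W.b₄)))
          rw [hadef, WeierstrassCurve.c₄] at h
          ring_nf at h ⊢
          exact h)
        obtain ⟨x, hx⟩ := hb2
        exact ⟨-x ^ 3 + 4 * x * W.b₄ - 8 * W.b₆, by
          rw [hbdef, WeierstrassCurve.c₆, hx]; ring⟩
      have h' : (27 : ℤ) ∣ u ^ 6 * C6 := by
        rw [← h6]; simpa using hd3.add hb27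
      exact ((show IsCoprime (27 : ℤ) (u ^ 6) from by
        simpa using hu3.pow (m := 3) (n := 6))).dvd_of_dvd_mul_left h'
    · left
      intro h
      exact h3a ((dvd_sub_right ((h4 ▸ h.mul_left _) : (3 : ℤ) ∣ hesseC4 a b s t)).1
        (h27.trans hd2))

/-- A member of the Hesse family with the properties of `IsTwoAdicSwitchModel`. -/
theorem exists_switchModel (W : WeierstrassCurve ℤ) (hΔ : W.Δ ≠ 0) (hW : W.IsSemistableModel) :
    ∃ (V : WeierstrassCurve ℤ) (s t u : ℤ), s ≠ 0 ∧ t ≠ 0 ∧ u ≠ 0 ∧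
      hesseC4 W.c₄ W.c₆ s t = u ^ 4 * V.c₄ ∧ hesseC6 W.c₄ W.c₆ s t = u ^ 6 * V.c₆ ∧
      IsTwoAdicSwitchModel V ∧ (W.IsGoodPrimeFor 3 → V.IsGoodPrimeFor 3) ∧
      ((2 : ℤ) ∣ W.Δ → (2 : ℤ) ∣ V.Δ) := by
  classical
  set a := W.c₄ with hadef
  set b := W.c₆ with hbdef
  set D := W.Δ with hDdef
  have hrel : a ^ 3 - b ^ 2 = 1728 * D := W.c_relation.symm
  have ha0 : a ≠ 0 := c4_ne_zero_of_semistable W hW
  have hab : a ^ 3 ≠ b ^ 2 := fun h => hΔ (by
    have : (1728 : ℤ) * D = 0 := by rw [← hrel, h, sub_self]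
    simpa using this)
  obtain ⟨i, s₂, t₂, hi, hpar, htwo⟩ := exists_twoClass hrel hΔ (twoTrichotomy W hW)
  set S : Finset ℕ := (6 * D).natAbs.primeFactors with hS
  have h6D : (6 * D).natAbs ≠ 0 := by simpa using hΔ
  have hmem : ∀ q : ℕ, q.Prime → (q ∈ S ↔ q = 2 ∨ q = 3 ∨ (q : ℤ) ∣ D) := fun q hq => by
    rw [hS, Nat.mem_primeFactors_of_ne_zero h6D, ← Int.natCast_dvd,
      (Nat.prime_iff_prime_int.1 hq).dvd_mul]
    refine ⟨fun h => ?_, fun h => ⟨hq, ?_⟩⟩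
    · rcases h.2 with h | h
      · have h6 : q ∣ 2 * 3 := by exact_mod_cast h
        rcases hq.dvd_mul.1 h6 with h | h
        · exact Or.inl ((Nat.prime_dvd_prime_iff_eq hq Nat.prime_two).1 h)
        · exact Or.inr (Or.inl ((Nat.prime_dvd_prime_iff_eq hq Nat.prime_three).1 h))
      · exact Or.inr (Or.inr h)
    · rcases h with rfl | rfl | h
      · exact Or.inl (by norm_num)
      · exact Or.inl (by norm_num)
      · exact Or.inr h
  set m : ℕ → ℤ := fun q => (q : ℤ) ^ (if q = 2 then 16 else 3) with hmdef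
  set cls : ℕ → ℤ × ℤ := fun q => if q = 2 then (s₂, t₂) else oddClass a b D q with hclsdef
  have hcop : ∀ p ∈ S, ∀ q ∈ S, p ≠ q → IsCoprime (m p) (m q) := fun p hp q hq hne =>
    (Int.isCoprime_iff_gcd_eq_one.2 (by
      simpa [Int.gcd_natCast_natCast] using (Nat.coprime_primes (Nat.prime_of_mem_primeFactors hp)
        (Nat.prime_of_mem_primeFactors hq)).2 hne)).pow
  obtain ⟨a₀, ha₀⟩ := exists_forall_dvd_sub_of_coprime S m (fun q => (cls q).1) hcop
  obtain ⟨b₀, hb₀⟩ := exists_forall_dvd_sub_of_coprime S m (fun q => (cls q).2) hcop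
  set M : ℤ := ∏ q ∈ S, m q with hMdef
  have hM0 : M ≠ 0 := Finset.prod_ne_zero_iff.2 fun q hq =>
    pow_ne_zero _ (by exact_mod_cast (Nat.prime_of_mem_primeFactors hq).ne_zero)
  have hMS : ∀ q : ℕ, q.Prime → (q : ℤ) ∣ M → q ∈ S := fun q hq hd => by
    obtain ⟨p, hp, hpd⟩ := (Nat.prime_iff_prime_int.1 hq).exists_mem_finset_dvd hd
    have hqp : q ∣ p := Int.natCast_dvd_natCast.1 ((Nat.prime_iff_prime_int.1 hq).dvd_of_dvd_pow hpd)
    rwa [(Nat.prime_dvd_prime_iff_eq hq (Nat.prime_of_mem_primeFactors hp)).1 hqp]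
  have hmS : ∀ q ∈ S, m q ∣ M := fun q hq => Finset.dvd_prod_of_mem m hq
  have hqm : ∀ q : ℕ, (q : ℤ) ∣ m q := fun q => dvd_pow_self _ (by split_ifs <;> norm_num)
  have hprim : ∀ q : ℕ, q.Prime → (q : ℤ) ∣ M → ¬ ((q : ℤ) ∣ a₀ ∧ (q : ℤ) ∣ b₀) := by
    intro q hq hd ⟨h1, h2⟩
    have hqS := hMS q hq hd
    have h1' : (q : ℤ) ∣ (cls q).1 := (dvd_sub_right h1).1 ((hqm q).trans (ha₀ q hqS))
    have h2' : (q : ℤ) ∣ (cls q).2 := (dvd_sub_right h2).1 ((hqm q).trans (hb₀ q hqS))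
    simp only [hclsdef] at h1' h2'
    split_ifs at h1' h2' with hq2
    · subst hq2
      exact hpar ⟨by exact_mod_cast h1', by exact_mod_cast h2'⟩
    · unfold oddClass at h1' h2'
      split_ifs at h1' h2' with hev
      · exact hW q hq hev.1 (by simpa using h2')
      · exact (Nat.prime_iff_prime_int.1 hq).not_dvd_one h1'
  obtain ⟨α, β, hαβ, R, hR, hcone⟩ := exists_cone hrel hΔ ha0
  set K := padicValInt 2 D + 3 with hKdef
  set B3 := padicValInt 3 D + 3 with hB3def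
  set K4 : ℤ := |a| * R ^ 4 + 4 * |b| * R ^ 3 + 6 * a ^ 2 * R ^ 2 + 4 * |a * b| * R
    + |-3 * a ^ 3 + 4 * b ^ 2| with hK4
  have hK4pos : 0 ≤ K4 := by rw [hK4]; positivity
  set E : ℤ := ((2 : ℤ) ^ (4 + K)) ^ 2 with hEdef
  obtain ⟨s, t, hsM, htM, hst, hBt, ht0, hsα, hsβ, hD0, hsq⟩ :=
    exists_coprime_quarticForm_sqfreeOutside (c₁ := 0) (c₂ := -6 * a) (c₃ := -8 * b)
      (c₄ := -3 * a ^ 2) (S := S) one_ne_zero (squarefree_hessePoly ha0 hab) hM0 hprim hMS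
      (fun q hq _ => ⟨1, 0, fun h => (Nat.prime_iff_prime_int.1 hq).not_dvd_one h.1, fun h => by
        rw [show quarticForm (1 : ℤ) 0 (-6 * a) (-8 * b) (-3 * a ^ 2) 1 0 = 1 by
          simp [quarticForm]] at h
        exact (Nat.prime_iff_prime_int.1 hq).not_dvd_one
          ((dvd_pow_self _ two_ne_zero).trans h)⟩)
      hαβ (2 ^ 24 * (E * (K4 + 7 * 2 ^ (4 + K)) + 2 ^ K * 3 ^ B3 + 1))
  simp only [← hesseD_eq_quarticForm] at hD0 hsq
  obtain ⟨hs0, hsR, hsign, hsize⟩ := hcone s t ht0 hsα hsβ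
  have hclass : ∀ q ∈ S, m q ∣ s - (cls q).1 ∧ m q ∣ t - (cls q).2 := fun q hq =>
    ⟨by simpa using ((hmS q hq).trans hsM).add (ha₀ q hq),
      by simpa using ((hmS q hq).trans htM).add (hb₀ q hq)⟩
  have h2S : 2 ∈ S := (hmem 2 Nat.prime_two).2 (Or.inl rfl)
  obtain ⟨C4, C6, D', h4, h6, hΔ', hC4, hC6, hat2⟩ := htwo s t
    (by simpa [hmdef, hclsdef] using (hclass 2 h2S).1)
    (by simpa [hmdef, hclsdef] using (hclass 2 h2S).2)
  set u : ℤ := 2 ^ i with hudef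
  have hu0 : u ≠ 0 := pow_ne_zero _ two_ne_zero
  have hD'0 : D' ≠ 0 := fun h => by
    rw [h, mul_zero] at hΔ'
    exact mul_ne_zero hΔ (pow_ne_zero 3 hD0) hΔ'
  have hrel' : C4 ^ 3 - C6 ^ 2 = 1728 * D' := by
    apply mul_left_cancel₀ (pow_ne_zero 12 hu0)
    have h := hesseC4_cube_sub_hesseC6_sq a b s t
    rw [h4, h6, hrel] at h
    linear_combination h + 1728 * hΔ'
  -- behaviour at an odd prime
  have hodd : ∀ q : ℕ, q.Prime → q ≠ 2 → ((q : ℤ) ∣ D ∨ (q : ℤ) ∣ hesseD a b s t) →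
      ¬ (q : ℤ) ∣ C4 ∧ Odd (padicValInt q D') ∧ padicValInt q D' ≤ padicValInt q D + 3 :=
    fun q hq h2 hdiv => switch_odd_prime hΔ hW hq h2 hst
      (fun p hp hp2 h => prime_int_not_dvd hp Nat.prime_two hp2
        ((Nat.prime_iff_prime_int.1 hp).dvd_of_dvd_pow h)) h4 hΔ' hD0 hD'0 hu0
      (fun h => by simpa [hmdef, hclsdef, h2] using hclass q ((hmem q hq).2 (Or.inr h)))
      (fun h => hsq q hq fun hS => h (((hmem q hq).1 hS).resolve_left h2)) hdiv
  have hdvd : ∀ q : ℕ, q.Prime → q ≠ 2 → (q : ℤ) ∣ D' →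
      (q : ℤ) ∣ D ∨ (q : ℤ) ∣ hesseD a b s t := by
    intro q hq _ hd
    have hq' := Nat.prime_iff_prime_int.1 hq
    have h : (q : ℤ) ∣ D * hesseD a b s t ^ 3 := hΔ' ▸ hd.mul_left _
    exact (hq'.dvd_or_dvd h).imp id fun h => hq'.dvd_of_dvd_pow h
  -- `3` good for `W`
  have h3good : ¬ (3 : ℤ) ∣ D → ¬ (3 : ℤ) ∣ D' ∧ (¬ (3 : ℤ) ∣ C4 ∨ 27 ∣ C6) := fun h3D => by
    have h := hclass 3 ((hmem 3 Nat.prime_three).2 (Or.inr (Or.inl rfl)))
    rw [show cls 3 = (1, 0) by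
      simp only [hclsdef, oddClass]; rw [if_neg (by norm_num), if_neg fun h' => h3D h'.1],
      show m 3 = 27 by simp [hmdef]] at h
    exact switch_three h3D ((show IsCoprime (3 : ℤ) 2 from ⟨1, -1, by norm_num⟩).pow_right)
      h4 h6 hΔ' h.1 h.2
  have hkraus : ¬ (3 : ℤ) ∣ C4 ∨ 27 ∣ C6 := by
    by_cases h3D : (3 : ℤ) ∣ D
    · exact Or.inl (hodd 3 Nat.prime_three (by norm_num) (Or.inl h3D)).1
    · exact (h3good h3D).2
  obtain ⟨V, hV4, hV6, hVΔ⟩ := exists_model C4 C6 D' hrel' hC4 hC6 hkraus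
  have hneg : D' < 0 := by
    have h1 : (D * hesseD a b s t) * hesseD a b s t ^ 2 < 0 :=
      mul_neg_of_neg_of_pos hsign (sq_pos_of_ne_zero hD0)
    have h2 : u ^ 12 * D' < 0 := by rw [← hΔ']; linarith
    by_contra hge
    exact absurd (mul_nonneg (pow_nonneg (show (0 : ℤ) ≤ u by rw [hudef]; positivity) 12)
      (not_lt.1 hge)) (not_le.2 h2)
  have hss : V.IsSemistableModel := by
    intro q hq hd
    rw [hV4]
    rw [hVΔ] at hd
    by_cases h2 : q = 2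
    · subst h2
      exact fun h => (Int.not_even_iff_odd.2 hC4) (even_iff_two_dvd.2 (by exact_mod_cast h))
    · exact (hodd q hq h2 (hdvd q hq h2 hd)).1
  have hoddV : ∀ q : ℕ, q.Prime → q ≠ 2 → (q : ℤ) ∣ V.Δ → Odd (padicValInt q V.Δ) := by
    intro q hq h2 hd
    rw [hVΔ] at hd ⊢
    exact (hodd q hq h2 (hdvd q hq h2 hd)).2.1
  have hK : padicValInt 2 D' ≤ K := by
    rcases hat2 with ⟨-, -, h⟩ | ⟨h, -⟩
    · exact h
    · rw [padicValInt.eq_zero_of_not_dvd (p := 2) (show ¬ ((2 : ℕ) : ℤ) ∣ D' by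
        intro hd; push_cast at hd; omega)]
      exact Nat.zero_le _
  -- sizes
  have hu12 : u ^ 12 ≤ 2 ^ 24 := by
    rw [hudef, ← pow_mul]; exact pow_le_pow_right₀ (by norm_num) (by omega)
  have ht1 : 1 ≤ t := ht0
  have hbigD : t * t ^ 4 ≤ 2 ^ 24 * |D'| := by
    calc t * t ^ 4 = t ^ 5 := by ring
      _ ≤ t ^ 12 := pow_le_pow_right₀ ht1 (by norm_num)
      _ = 1 * (t ^ 4) ^ 3 := by ring
      _ ≤ |D| * |hesseD a b s t| ^ 3 := by
        gcongr
        exact Int.one_le_abs hΔ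
      _ = |u ^ 12 * D'| := by rw [← hΔ', abs_mul, abs_pow]
      _ = u ^ 12 * |D'| := by rw [abs_mul, abs_of_nonneg (by positivity : (0 : ℤ) ≤ u ^ 12)]
      _ ≤ 2 ^ 24 * |D'| := by gcongr
  have ht4 : 1 ≤ t ^ 4 := one_le_pow₀ ht1
  have hbig : E * (|C4| + 7 * 2 ^ (4 + K)) < 256 * |D'| := by
    have hC4le : |C4| ≤ K4 * t ^ 4 := by
      refine le_trans ?_ (abs_hesseC4_le (a := a) (b := b) ht0.le hsR)
      rw [h4, abs_mul, abs_of_nonneg (by positivity : (0 : ℤ) ≤ u ^ 4)]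
      exact le_mul_of_one_le_left (abs_nonneg _) (one_le_pow₀ (one_le_pow₀ (by norm_num)))
    have h7 : |C4| + 7 * 2 ^ (4 + K) ≤ (K4 + 7 * 2 ^ (4 + K)) * t ^ 4 := by
      rw [add_mul]
      exact add_le_add hC4le (le_mul_of_one_le_right (by positivity) ht4)
    have hE : 0 ≤ E := by rw [hEdef]; positivity
    have h8 : E * (|C4| + 7 * 2 ^ (4 + K)) * 2 ^ 24 < t * t ^ 4 := by
      calc E * (|C4| + 7 * 2 ^ (4 + K)) * 2 ^ 24
          ≤ E * ((K4 + 7 * 2 ^ (4 + K)) * t ^ 4) * 2 ^ 24 := by gcongr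
        _ = (2 ^ 24 * (E * (K4 + 7 * 2 ^ (4 + K)))) * t ^ 4 := by ring
        _ < t * t ^ 4 := by
          refine mul_lt_mul_of_pos_right (lt_of_le_of_lt ?_ hBt) (by positivity)
          gcongr
          have : (0 : ℤ) ≤ 2 ^ K * 3 ^ B3 + 1 := by positivity
          linarith
    have h10 : E * (|C4| + 7 * 2 ^ (4 + K)) < |D'| :=
      lt_of_mul_lt_mul_left (lt_of_eq_of_lt (mul_comm _ _) (h8.trans_le hbigD)) (by norm_num)
    linarith [abs_nonneg D']
  have hbad : ∃ q : ℕ, q.Prime ∧ 5 ≤ q ∧ (q : ℤ) ∣ V.Δ := by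
    rw [hVΔ]
    by_contra hno
    push Not at hno
    have h3le : padicValInt 3 D' ≤ B3 := by
      by_cases h3 : (3 : ℤ) ∣ D'
      · exact (hodd 3 Nat.prime_three (by norm_num)
          (hdvd 3 Nat.prime_three (by norm_num) h3)).2.2
      · rw [padicValInt.eq_zero_of_not_dvd (p := 3) (by exact_mod_cast h3)]
        exact Nat.zero_le _
    have hle : |D'| ≤ 2 ^ K * 3 ^ B3 := by
      rw [← Int.natCast_natAbs]
      have hdvd' : D'.natAbs ∣ 2 ^ K * 3 ^ B3 := by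
        rw [← Nat.factorization_le_iff_dvd (by simpa using hD'0) (by positivity)]
        intro p
        by_cases hp : p.Prime
        · by_cases hpd : p ∣ D'.natAbs
          · have hp5 : p < 5 := by
              by_contra h
              exact hno p hp (by omega) (Int.natCast_dvd.2 hpd)
            have h2' := hp.two_le
            interval_cases p
            · rw [Nat.factorization_mul (by positivity) (by positivity), Finsupp.add_apply,
                Nat.Prime.factorization_pow Nat.prime_two, Finsupp.single_eq_same,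
                Nat.factorization_def _ Nat.prime_two]
              exact le_add_right hK
            · rw [Nat.factorization_mul (by positivity) (by positivity), Finsupp.add_apply,
                Nat.Prime.factorization_pow Nat.prime_three, Finsupp.single_eq_same,
                Nat.factorization_def _ Nat.prime_three]
              exact le_add_left h3le
            · exact absurd hp (by norm_num)
          · rw [Nat.factorization_eq_zero_of_not_dvd hpd]; exact Nat.zero_le _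
        · rw [Nat.factorization_eq_zero_of_not_prime _ hp]; exact Nat.zero_le _
      exact_mod_cast Nat.le_of_dvd (by positivity) hdvd'
    have h9 : 2 ^ 24 * (2 ^ K * 3 ^ B3) < t := by
      refine lt_of_le_of_lt ?_ hBt
      gcongr
      have : (0 : ℤ) ≤ E * (K4 + 7 * 2 ^ (4 + K)) + 1 := by rw [hEdef]; positivity
      linarith
    have h10 : 2 ^ 24 * |D'| < 2 ^ 24 * |D'| := calc
      2 ^ 24 * |D'| ≤ 2 ^ 24 * (2 ^ K * 3 ^ B3) := by gcongr
      _ < t := h9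
      _ ≤ t * t ^ 4 := le_mul_of_one_le_right ht0.le ht4
      _ ≤ 2 ^ 24 * |D'| := hbigD
    exact lt_irrefl _ h10
  refine ⟨V, s, t, u, hs0.ne', ht0.ne', hu0, by rw [hV4]; exact h4, by rw [hV6]; exact h6,
    { Δ_neg := by rwa [hVΔ]
      semistable := hss
      odd_valuation := hoddV
      atTwo := ?_
      exists_bad := hbad
      noTwoTorsion := no_rational_two_torsion V hss hoddV (K := K) (by rwa [hVΔ])
        (by rw [hV4, hVΔ]; exact hbig) }, fun h3 => ?_, fun h2 => ?_⟩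
  · rw [hVΔ, hV4]
    rcases hat2 with ⟨h1, h2, -⟩ | ⟨h, -⟩
    · exact Or.inl ⟨h1, h2⟩
    · exact Or.inr ⟨hC4, h⟩
  · rw [WeierstrassCurve.IsGoodPrimeFor] at h3 ⊢
    rw [hVΔ]
    exact_mod_cast (h3good (by exact_mod_cast h3)).1
  · rw [hVΔ]
    rcases hat2 with ⟨h, -, -⟩ | ⟨-, h⟩
    · exact h
    · exact absurd h2 h

end Fermat.Agent.TwoAdic
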