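/-
The switched curve and the transfer of modularity back to the original curve.
-/
import Fermat.Agent.TwoAdic.HesseTransfer
import Fermat.Agent.TwoAdic.Switch.Main
import Fermat.Prelude.Def_FLTPrelim_ModularRep
import Mathlib.Algebra.Squarefree.Basic

set_option autoImplicit false

namespace Fermat.Agent.TwoAdic

open WeierstrassCurve

/-- The 2-adic switch: a curve suitable for the 2-adic argument with the traces of `W` modulo 3. -/
theorem exists_switch_curve (W : WeierstrassCurve ℤ) (hΔ : W.Δ ≠ 0) (hW : W.IsSemistableModel)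
    (h3 : W.ModRepIsIrreducible 3) :
    ∃ V : WeierstrassCurve ℤ, IsTwoAdicSwitchModel V ∧ V.ModRepIsIrreducible 3 ∧
      (W.IsGoodPrimeFor 3 → V.IsGoodPrimeFor 3) ∧
      ∀ ℓ : ℕ, ℓ.Prime → ℓ ≠ 3 → W.IsGoodPrimeFor ℓ → V.IsGoodPrimeFor ℓ →
        (3 : ℤ) ∣ V.apOfModel ℓ - W.apOfModel ℓ := by
  obtain ⟨V, s, t, u, -, -, hu, h4, h6, hV, hV3, -⟩ := exists_switchModel W hΔ hW
  have hc := c₄_ne_zero_of_isSemistableModel W hΔ hW
  have hc' := c₄_ne_zero_of_isSemistableModel V hV.Δ_ne_zero hV.semistable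
  exact ⟨V, hV, modRepIsIrreducible_three_of_member W V hΔ hV.Δ_ne_zero hc hc' hu h4 h6 h3, hV3,
    fun ℓ hℓ hℓ3 hg hg' =>
      dvd_apOfModel_sub_of_member W V hΔ hV.Δ_ne_zero hc hc' hu h4 h6 hℓ hℓ3 hg hg'⟩

/-- Residual modularity passes back from a curve with the same traces modulo 3. -/
theorem isResiduallyModularOfLevel_of_congr {W V : WeierstrassCurve ℤ} {M : ℕ}
    (hVM : ∀ ℓ : ℕ, ℓ.Prime → ℓ ≠ 3 → (ℓ : ℤ) ∣ V.Δ → ℓ ∣ M)
    (hcong : ∀ ℓ : ℕ, ℓ.Prime → ℓ ≠ 3 → W.IsGoodPrimeFor ℓ → V.IsGoodPrimeFor ℓ →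
      (3 : ℤ) ∣ V.apOfModel ℓ - W.apOfModel ℓ)
    (hV : V.IsResiduallyModularOfLevel 3 M) : W.IsResiduallyModularOfLevel 3 M := by
  obtain ⟨f, 𝔪, hf, hmax, h3, hap⟩ := hV
  refine ⟨f, 𝔪, hf, hmax, h3, fun ℓ hℓ hg hM hne => ?_⟩
  have hg' : V.IsGoodPrimeFor ℓ := fun h => hM (hVM ℓ hℓ hne h)
  obtain ⟨a, ha, hsub⟩ := hap ℓ hℓ hg' hM hne
  refine ⟨a, ha, ?_⟩
  obtain ⟨k, hk⟩ := hcong ℓ hℓ hne hg hg'
  have e : a - ((W.apOfModel ℓ : ℤ) : integralClosure ℤ ℂ) =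
      (a - ((V.apOfModel ℓ : ℤ) : integralClosure ℤ ℂ)) +
        (k : integralClosure ℤ ℂ) * ((3 : ℕ) : integralClosure ℤ ℂ) := by
    have := congrArg (Int.cast : ℤ → integralClosure ℤ ℂ) hk
    push_cast at this ⊢
    linear_combination this
  rw [e]
  exact 𝔪.add_mem hsub (𝔪.mul_mem_left _ h3)

/-- A curve modular of a level gives residual modularity at that level. -/
theorem isResiduallyModularOfLevel_three_of_isModularModelOfLevel {V : WeierstrassCurve ℤ} {M : ℕ}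
    (h : V.IsModularModelOfLevel M) : V.IsResiduallyModularOfLevel 3 M := by
  obtain ⟨f, hf, hap⟩ := h
  obtain ⟨𝔪, hmax, h3⟩ := FLTPrelim.exists_maximalIdeal_natCast_prime_mem Nat.prime_three
  exact ⟨f, 𝔪, hf, hmax, h3, fun ℓ hℓ hg hM _ => ⟨(V.apOfModel ℓ : integralClosure ℤ ℂ),
    by rw [hap ℓ hℓ hg hM]; simp, by rw [sub_self]; exact 𝔪.zero_mem⟩⟩

/-- The statement wanted for mod 3 residual modularity, from modularity of the switched curve. -/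
theorem exists_squarefree_level_of_switch (W : WeierstrassCurve ℤ) (hΔ : W.Δ ≠ 0)
    (hW : W.IsSemistableModel) (h3 : W.ModRepIsIrreducible 3)
    (hmod : ∀ V : WeierstrassCurve ℤ, IsTwoAdicSwitchModel V → ∃ M : ℕ, Squarefree M ∧
      (∀ ℓ : ℕ, ℓ.Prime → ℓ ≠ 3 → (ℓ : ℤ) ∣ V.Δ → ℓ ∣ M) ∧ V.IsResiduallyModularOfLevel 3 M) :
    ∃ M : ℕ, 0 < M ∧ W.IsResiduallyModularOfLevel 3 M ∧
      (∀ q : ℕ, q.Prime → q ≠ 3 → ¬ q ^ 3 ∣ M) ∧ ¬ 3 ^ 2 ∣ M := by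
  obtain ⟨V, hV, -, -, hcong⟩ := exists_switch_curve W hΔ hW h3
  obtain ⟨M, hsq, hbad, hres⟩ := hmod V hV
  refine ⟨M, Nat.pos_of_ne_zero hsq.ne_zero, isResiduallyModularOfLevel_of_congr hbad hcong hres,
    fun q hq _ h => ?_, fun h => ?_⟩
  · exact hq.ne_one (Nat.isUnit_iff.1 (hsq q (dvd_trans ⟨q, by ring⟩ h)))
  · exact absurd (Nat.isUnit_iff.1 (hsq 3 (by simpa [sq] using h))) (by norm_num)

end Fermat.Agent.TwoAdic
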