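/-
The contract of the switch for the two-adic route.
-/
import Fermat.Agent.TwoAdic.Switch.Curve
import Fermat.Agent.TwoAdic.Contracts.Props

set_option autoImplicit false

namespace Fermat.Agent.TwoAdic

open WeierstrassCurve

theorem IsTwoAdicSwitchModel.isTresModel {V : WeierstrassCurve ℤ} (h : IsTwoAdicSwitchModel V)
    (h2 : (2 : ℤ) ∣ V.Δ) : IsTresModel V where
  delta_neg := h.Δ_neg
  semistable := h.semistable
  two_dvd := h2
  odd_val q hq hd := by
    rcases eq_or_ne q 2 with rfl | hne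
    · rcases h.atTwo with ⟨-, ho⟩ | ⟨-, h8⟩
      · exact ho
      · omega
    · exact h.odd_valuation q hq hne hd
  exists_five_le := h.exists_bad
  no_two_torsion := h.noTwoTorsion

/-- P1: the switch. -/
theorem switchExists : SwitchExists := by
  intro W hΔ hW h2 _
  obtain ⟨V, s, t, u, -, -, hu, h4, h6, hV, hV3, hV2⟩ := exists_switchModel W hΔ hW
  have hc := c₄_ne_zero_of_isSemistableModel W hΔ hW
  have hc' := c₄_ne_zero_of_isSemistableModel V hV.Δ_ne_zero hV.semistable
  exact ⟨V, hV.isTresModel (hV2 h2), hV3, fun ℓ hℓ hg hg' hℓ3 =>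
    dvd_apOfModel_sub_of_member W V hΔ hV.Δ_ne_zero hc hc' hu h4 h6 hℓ hℓ3 hg hg'⟩

end Fermat.Agent.TwoAdic
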